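import Fermat.Agent.KUM.Small
import Fermat.Prelude.Def_FLTPrelim_FreyPackage

/-!
# No Frey package with a small exponent

`no_freyPackage`, applied to the exponents of `Small` in S10 and S11.
-/

namespace Fermat.KUM

/-- A Frey package cannot have an exponent for which Fermat's Last Theorem holds. -/
theorem no_freyPackage (P : FreyPackage) {p : ℕ} (h : FermatLastTheoremFor p) (hp : P.p = p) :
    False := by
  subst hp
  exact fermatLastTheoremFor_iff_int.1 h P.a P.b P.c P.ha0 P.hb0 P.hc0 P.hFLT

end Fermat.KUM
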