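import Mathlib.RingTheory.Polynomial.Cyclotomic.Basic
import Mathlib.RingTheory.RootsOfUnity.CyclotomicUnits
import Mathlib.RingTheory.PrincipalIdealDomain
import Mathlib.RingTheory.UniqueFactorizationDomain.Multiplicity
import Mathlib.Algebra.CharP.Lemmas
import Mathlib.FieldTheory.Finite.Basic
import Mathlib.Tactic.LinearCombination

/-!
# The second case of Fermat's last theorem, Kummer's descent in a PID

`R` plays the role of `ℤ[ζ_p]`, and `z` that of `ζ_p`; `KummerRing` lists what the descent uses. A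
solution of `x ^ p + y ^ p = e ((z - 1) ^ m w) ^ p` is turned into one with exponent `m - 1`.
-/

namespace Fermat.KUM

variable {R : Type*} [CommRing R]

/-- The properties of `ℤ[ζ_p]` used by the descent. -/
structure KummerRing (p : ℕ) (z : R) : Prop where
  /-- `p` is prime. -/
  prime : p.Prime
  /-- `p` is at least five. -/
  five_le : 5 ≤ p
  /-- `z` is a primitive `p`-th root of unity. -/
  root : IsPrimitiveRoot z p
  /-- `z - 1` is prime. -/
  prime_pi : Prime (z - 1)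
  /-- `(z - 1) ^ (p - 1)` is associated to `p`. -/
  assoc : Associated ((z - 1) ^ (p - 1)) (p : R)
  /-- An integer is divisible by `z - 1` exactly when `p` divides it. -/
  dvd_int : ∀ n : ℤ, z - 1 ∣ (n : R) ↔ (p : ℤ) ∣ n
  /-- Every residue modulo `z - 1` is that of an integer. -/
  residue : ∀ x : R, ∃ a : ℤ, z - 1 ∣ x - (a : R)
  /-- Kummer's lemma: a unit congruent to an integer modulo `p` is a `p`-th power. -/
  kummer : ∀ (u : Rˣ) (n : ℤ), (p : R) ∣ (u : R) - (n : R) → ∃ v : Rˣ, u = v ^ p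

variable {p : ℕ} {z : R}

/-- The exponent is odd. -/
lemma KummerRing.odd (H : KummerRing p z) : Odd p :=
  H.prime.odd_of_ne_two (by have := H.five_le; omega)

/-- If every element is an integer modulo `z - 1` and `(z - 1) ^ (p - 1)` is associated to `p`, a
`p`-th power is congruent to a rational integer modulo `p`. -/
lemma exists_int_congr_pow (hp : p.Prime) (hassoc : Associated ((z - 1) ^ (p - 1)) (p : R))
    (hres : ∀ x : R, ∃ a : ℤ, z - 1 ∣ x - (a : R)) (x : R) :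
    ∃ a : ℤ, (p : R) ∣ x ^ p - (a : R) := by
  obtain ⟨a, w, hw⟩ := hres x
  obtain ⟨r, hr⟩ := exists_add_pow_prime_eq hp ((z - 1) * w) (a : R)
  refine ⟨a ^ p, ?_⟩
  rw [show x = (z - 1) * w + a by rw [← hw]; ring, hr, Int.cast_pow, add_right_comm,
    add_sub_cancel_right]
  refine dvd_add (hassoc.symm.dvd.trans ?_) (((dvd_mul_right _ _).mul_right _).mul_right _)
  rw [mul_pow]
  exact (pow_dvd_pow _ (Nat.sub_le p 1)).trans (dvd_mul_right _ _)

variable [IsDomain R]

/-- The factorisation of `x ^ p + y ^ p`. -/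
lemma prod_eq (H : KummerRing p z) (x y : R) :
    ∏ i ∈ Finset.range p, (x + z ^ i * y) = x ^ p + y ^ p := by
  refine Eq.trans ?_ (H.root.pow_add_pow_eq_prod_add_mul x y H.odd).symm
  have := NeZero.mk H.prime.ne_zero
  refine Finset.prod_bij (fun i _ ↦ z ^ i) ?_ ?_ ?_ (fun _ _ ↦ rfl)
  · intro i _
    rw [Polynomial.mem_nthRootsFinset H.prime.pos, ← pow_mul, mul_comm, pow_mul, H.root.pow_eq_one,
      one_pow]
  · exact fun i hi j hj h ↦ H.root.pow_inj (Finset.mem_range.1 hi) (Finset.mem_range.1 hj) h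
  · intro η hη
    rw [Polynomial.mem_nthRootsFinset H.prime.pos] at hη
    obtain ⟨i, hi, rfl⟩ := H.root.eq_pow_of_pow_eq_one hη
    exact ⟨i, Finset.mem_range.2 hi, rfl⟩

/-- Differences of distinct powers of `z` are associated to `z - 1`. -/
lemma assoc_pow_sub_pow (H : KummerRing p z) {i j : ℕ} (hi : i < p) (hj : j < p) (hij : i ≠ j) :
    Associated (z - 1) (z ^ i - z ^ j) := by
  wlog h : j < i generalizing i j
  · exact (this hj hi hij.symm (by omega)).trans ⟨-1, by simp⟩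
  have hc : (i - j).Coprime p := (Nat.coprime_comm.1 <| H.prime.coprime_iff_not_dvd.2 fun hd ↦ by
    have := Nat.le_of_dvd (by omega) hd; omega)
  have hu : IsUnit (z ^ j) := (H.root.isUnit H.prime.ne_zero).pow j
  rw [show z ^ i - z ^ j = z ^ j * (z ^ (i - j) - 1) by
    rw [mul_sub, mul_one, ← pow_add, show j + (i - j) = i by omega]]
  exact (H.root.associated_sub_one_pow_sub_one_of_coprime hc).trans
    (associated_unit_mul_left _ _ hu).symm

/-- No solution in the normalised form of the descent. -/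
def NoSol (p : ℕ) (z : R) (m : ℕ) : Prop :=
  ∀ (x y w : R) (e : Rˣ), ¬z - 1 ∣ x → ¬z - 1 ∣ w → IsCoprime x y →
    x ^ p + y ^ p ≠ e * ((z - 1) ^ m * w) ^ p

omit [IsDomain R] in
/-- In a solution with `x` prime to `z - 1`, also `y` is. -/
lemma not_dvd_y (H : KummerRing p z) {m : ℕ} (hm : m ≠ 0) {x y w : R} {e : Rˣ}
    (hx : ¬z - 1 ∣ x) (h : x ^ p + y ^ p = e * ((z - 1) ^ m * w) ^ p) : ¬z - 1 ∣ y := by
  refine fun hy ↦ hx (H.prime_pi.dvd_of_dvd_pow (n := p) ?_)
  rw [eq_sub_of_add_eq h]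
  exact dvd_sub (((dvd_pow_self _ hm).mul_right w |>.pow H.prime.ne_zero).mul_left _)
    (hy.pow H.prime.ne_zero)

/-- Replace `y` by some `z ^ i * y` so that `(z - 1) ^ 2 ∣ x + y`. -/
lemma exists_normalize (H : KummerRing p z) {m : ℕ} (hm : m ≠ 0) {x y w : R} {e : Rˣ}
    (hx : ¬z - 1 ∣ x) (h : x ^ p + y ^ p = e * ((z - 1) ^ m * w) ^ p) :
    ∃ i, (z - 1) ^ 2 ∣ x + z ^ i * y := by
  have hy := not_dvd_y H hm hx h
  have hall : ∀ i < p, z - 1 ∣ x + z ^ i * y := by
    have : z - 1 ∣ ∏ i ∈ Finset.range p, (x + z ^ i * y) := by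
      rw [prod_eq H, h]
      exact ((dvd_pow_self _ hm).mul_right w |>.pow H.prime.ne_zero).mul_left _
    obtain ⟨j, hj, hdj⟩ := H.prime_pi.exists_mem_finset_dvd this
    intro i hi
    rcases eq_or_ne i j with rfl | hij
    · exact hdj
    rw [show x + z ^ i * y = (x + z ^ j * y) + (z ^ i - z ^ j) * y by ring]
    exact dvd_add hdj ((assoc_pow_sub_pow H hi (Finset.mem_range.1 hj) hij).dvd.mul_right y)
  -- the residues of `(x + z ^ i y) / (z - 1)` are distinct, so one of them is zero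
  choose f hf using hall
  choose a ha using fun i : Fin p ↦ H.residue (f i i.2)
  have := Fact.mk H.prime
  have hinj : Function.Injective fun i : Fin p ↦ (a i : ZMod p) := by
    intro i j hij
    by_contra hne
    simp only [ZMod.intCast_eq_intCast_iff_dvd_sub] at hij
    have h1 : z - 1 ∣ f i i.2 - f j j.2 := by
      have h' := dvd_add (dvd_sub (ha i) (ha j)) (dvd_neg.2 ((H.dvd_int _).2 hij))
      push_cast at h'
      convert h' using 1
      ring
    obtain ⟨u, hu⟩ := assoc_pow_sub_pow H i.2 j.2 (Fin.val_ne_of_ne hne)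
    refine hy ((u.isUnit.dvd_mul_left).1 (?_ : z - 1 ∣ (u : R) * y))
    obtain ⟨c, hc⟩ := h1
    refine ⟨c, mul_left_cancel₀ H.prime_pi.ne_zero ?_⟩
    linear_combination hf i i.2 - hf j j.2 + y * hu + (z - 1) * hc
  obtain ⟨i, hi⟩ := ((Fintype.bijective_iff_injective_and_card _).2
    ⟨hinj, by simp⟩).surjective 0
  refine ⟨i, ?_⟩
  rw [hf i i.2, sq]
  refine mul_dvd_mul_left _ ?_
  have h0 : z - 1 ∣ (a i : R) :=
    (H.dvd_int _).2 ((ZMod.intCast_zmod_eq_zero_iff_dvd _ _).1 hi)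
  simpa using dvd_add (ha i) h0

/-- The factors `x + z ^ i * y` with their powers of `z - 1` removed. -/
lemma exists_factors (H : KummerRing p z) {m : ℕ} (hm : m ≠ 0) {x y w : R} {e : Rˣ}
    (hx : ¬z - 1 ∣ x) (hw : ¬z - 1 ∣ w) (h : x ^ p + y ^ p = e * ((z - 1) ^ m * w) ^ p)
    (h2 : (z - 1) ^ 2 ∣ x + y) :
    ∃ k, m = k + 2 ∧ ∃ F : ℕ → R, x + y = (z - 1) ^ ((k + 1) * p + 1) * F 0 ∧
      (∀ i < p, i ≠ 0 → x + z ^ i * y = (z - 1) * F i) ∧
      ∏ i ∈ Finset.range p, F i = (e : R) * w ^ p := by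
  classical
  have hy := not_dvd_y H hm hx h
  have hπ0 : z - 1 ≠ 0 := H.prime_pi.ne_zero
  obtain ⟨q, hq⟩ : ∃ q, p = q + 1 := ⟨p - 1, by have := H.five_le; omega⟩
  -- the factors other than `x + y`
  have hF : ∀ i, ∃ fi, i < q → x + z ^ (i + 1) * y = (z - 1) * fi ∧ ¬z - 1 ∣ fi := by
    intro i
    by_cases hi : i < q
    · obtain ⟨u, hu⟩ := assoc_pow_sub_pow H (i := i + 1) (j := 0) (by omega) (by omega) (by omega)
      obtain ⟨t, ht⟩ := h2
      refine ⟨(z - 1) * t + u * y, fun _ ↦ ⟨?_, fun hd ↦ ?_⟩⟩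
      · rw [pow_zero] at hu; linear_combination ht - y * hu
      · exact hy ((u.isUnit.dvd_mul_left).1 ((dvd_add_right (dvd_mul_right _ t)).1 hd))
    · exact ⟨0, fun h ↦ absurd h hi⟩
  choose f hf using hF
  have hprod : (x + y) * ((z - 1) ^ q * ∏ i ∈ Finset.range q, f i)
      = e * ((z - 1) ^ (m * p) * w ^ p) := by
    rw [pow_mul, ← mul_pow, ← h, ← prod_eq H x y, hq, Finset.prod_range_succ', pow_zero, one_mul,
      mul_comm]
    congr 1
    rw [Finset.prod_congr rfl fun i hi ↦ (hf i (Finset.mem_range.1 hi)).1,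
      Finset.prod_mul_distrib, Finset.prod_const, Finset.card_range]
  have hfprod : ¬z - 1 ∣ ∏ i ∈ Finset.range q, f i := by
    intro hd
    obtain ⟨j, hj, hdj⟩ := H.prime_pi.exists_mem_finset_dvd hd
    exact (hf j (Finset.mem_range.1 hj)).2 hdj
  have hew : ¬z - 1 ∣ (e : R) * w ^ p := fun hd ↦
    hw (H.prime_pi.dvd_of_dvd_pow ((e.isUnit.dvd_mul_left).1 hd))
  -- `m ≥ 2`
  have hm2 : p + 1 ≤ m * p := by
    by_contra hlt
    refine hew ?_
    obtain ⟨t, ht⟩ := h2
    have h' : (z - 1) ^ (m * p) * ((z - 1) ^ (2 + q - m * p) * (t * ∏ i ∈ Finset.range q, f i))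
        = (z - 1) ^ (m * p) * ((e : R) * w ^ p) := by
      rw [← mul_assoc, ← pow_add, show m * p + (2 + q - m * p) = 2 + q by omega, pow_add]
      linear_combination hprod - (z - 1) ^ q * (∏ i ∈ Finset.range q, f i) * ht
    rw [← mul_left_cancel₀ (pow_ne_zero _ hπ0) h']
    exact (dvd_pow_self _ (by omega)).mul_right _
  obtain ⟨k, rfl⟩ : ∃ k, m = k + 2 := by
    refine ⟨m - 2, ?_⟩
    rcases m with _ | _ | m <;> omega
  refine ⟨k, rfl, ?_⟩
  have he : (k + 2) * p = q + ((k + 1) * p + 1) := by subst hq; ring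
  rw [he, pow_add] at hprod
  obtain ⟨g, hg⟩ : (z - 1) ^ ((k + 1) * p + 1) ∣ x + y := by
    refine H.prime_pi.pow_dvd_of_dvd_mul_right _ hfprod ?_
    have h' : (z - 1) ^ q * ((x + y) * ∏ i ∈ Finset.range q, f i)
        = (z - 1) ^ q * ((z - 1) ^ ((k + 1) * p + 1) * ((e : R) * w ^ p)) := by
      linear_combination hprod
    exact ⟨_, mul_left_cancel₀ (pow_ne_zero _ hπ0) h'⟩
  refine ⟨fun i ↦ if i = 0 then g else f (i - 1), by simpa using hg, fun i hi hi0 ↦ ?_, ?_⟩
  · obtain ⟨i, rfl⟩ := Nat.exists_eq_succ_of_ne_zero hi0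
    simp only [Nat.succ_ne_zero, if_false, Nat.succ_sub_one]
    exact (hf i (by omega)).1
  · rw [hq, Finset.prod_range_succ', ← hq]
    simp only [Nat.succ_ne_zero, if_false, if_pos, Nat.add_sub_cancel]
    rw [hg] at hprod
    refine mul_left_cancel₀ (pow_ne_zero (q + ((k + 1) * p + 1)) hπ0) ?_
    rw [pow_add]
    linear_combination hprod

variable [IsPrincipalIdealRing R]

/-- The reduced factors are pairwise coprime. -/
lemma coprime_factors (H : KummerRing p z) {x y : R} (hxy : IsCoprime x y) {F P : ℕ → R}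
    (hFspec : ∀ i < p, x + z ^ i * y = (z - 1) * P i * F i) (hFnd : ∀ i < p, ¬z - 1 ∣ F i) :
    ∀ i < p, ∀ j < p, i ≠ j → IsCoprime (F i) (F j) := by
  intro i hi j hj hij
  refine isCoprime_of_prime_dvd (fun h0 ↦ hFnd i hi (h0.1 ▸ dvd_zero _)) fun r hr hri hrj ↦ ?_
  obtain ⟨u, hu⟩ := assoc_pow_sub_pow H hi hj hij
  obtain ⟨a, ha⟩ := hri.mul_left (P i)
  obtain ⟨b, hb⟩ := hrj.mul_left (P j)
  have hyy : r ∣ y := by
    refine (u.isUnit.dvd_mul_left).1 ⟨a - b, mul_left_cancel₀ H.prime_pi.ne_zero ?_⟩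
    linear_combination hFspec i hi - hFspec j hj + y * hu + (z - 1) * ha - (z - 1) * hb
  have hxx : r ∣ x := (dvd_add_left (hyy.mul_left (z ^ i))).1
    ⟨(z - 1) * a, by rw [hFspec i hi, mul_assoc, ha]; ring⟩
  exact hr.not_isUnit (hxy.isUnit_of_dvd' hxx hyy)

/-- Pairwise coprime elements whose product is a unit times a `p`-th power are themselves units
times `p`-th powers. -/
lemma factor_eq_unit_mul_pow {F : ℕ → R} {e : Rˣ} {w : R}
    (hcop : ∀ i < p, ∀ j < p, i ≠ j → IsCoprime (F i) (F j))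
    (hFprod : ∏ i ∈ Finset.range p, F i = (e : R) * w ^ p) {i : ℕ} (hi : i < p) :
    ∃ (u : Rˣ) (d : R), F i = u * d ^ p := by
  classical
  have hsplit : F i * ∏ j ∈ (Finset.range p).erase i, F j = (e : R) * w ^ p := by
    rw [Finset.mul_prod_erase _ _ (Finset.mem_range.2 hi), hFprod]
  have hc : IsCoprime (F i) ((↑e⁻¹ : R) * ∏ j ∈ (Finset.range p).erase i, F j) :=
    (isCoprime_mul_unit_left_right e⁻¹.isUnit _ _).2 (IsCoprime.prod_right fun j hj ↦
      hcop i hi j (Finset.mem_range.1 (Finset.mem_of_mem_erase hj))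
        (Finset.ne_of_mem_erase hj).symm)
  obtain ⟨d, u, hd⟩ := exists_associated_pow_of_mul_eq_pow' hc (c := w) (k := p) (by
    rw [← mul_assoc, mul_comm (F i), mul_assoc, hsplit, ← mul_assoc, Units.inv_mul, one_mul])
  exact ⟨u, d, by rw [← hd, mul_comm]⟩

omit [IsPrincipalIdealRing R] [IsDomain R] in
/-- Kummer's lemma applied to the coefficient of the reduced equation. -/
lemma exists_pth_root_unit (H : KummerRing p z) {d₁ d₂ d₀ : R} {u v : Rˣ} {k : ℕ}
    (hnd₂ : ¬z - 1 ∣ d₂)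
    (key : d₁ ^ p + (u : R) * d₂ ^ p = (v : R) * ((z - 1) ^ (k + 1) * d₀) ^ p) :
    ∃ t : Rˣ, u = t ^ p := by
  obtain ⟨a, ha⟩ := exists_int_congr_pow H.prime H.assoc H.residue d₁
  obtain ⟨b, hb⟩ := exists_int_congr_pow H.prime H.assoc H.residue d₂
  have hπp : z - 1 ∣ (p : R) := by
    have := (H.dvd_int (p : ℤ)).2 dvd_rfl
    simpa using this
  have := Fact.mk H.prime
  have hb0 : (b : ZMod p) ≠ 0 := fun hb0 ↦ hnd₂ (H.prime_pi.dvd_of_dvd_pow (n := p) (by
    simpa using dvd_add (hπp.trans hb)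
      ((H.dvd_int b).2 ((ZMod.intCast_zmod_eq_zero_iff_dvd _ _).1 hb0))))
  let c : ℤ := (-(a : ZMod p) / b).val
  have hcb : (p : ℤ) ∣ c * b + a := by
    rw [← ZMod.intCast_zmod_eq_zero_iff_dvd]
    simp [c, div_mul_cancel₀ _ hb0]
  refine H.kummer u c ?_
  have hR : (p : R) ∣ ((u : R) - c) * (b : R) := by
    have h1 : (p : R) ∣ ((c * b + a : ℤ) : R) := by
      rw [← Int.cast_natCast (R := R) p]; exact map_dvd (Int.castRingHom R) hcb
    have h3 : (p : R) ∣ ((z - 1) ^ (k + 1) * d₀) ^ p := by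
      refine H.assoc.symm.dvd.trans ?_
      rw [mul_pow, ← pow_mul]
      exact (pow_dvd_pow _ (by nlinarith [Nat.sub_le p 1])).trans (dvd_mul_right _ _)
    have h4 := dvd_sub (dvd_sub (dvd_sub (h3.mul_left (v : R)) ha) (hb.mul_left (u : R))) h1
    push_cast at h4
    convert h4 using 1
    rw [← key]
    ring
  obtain ⟨s, t, hst⟩ : IsCoprime (b : ℤ) (p : ℤ) := by
    rw [isCoprime_comm, (Nat.prime_iff_prime_int.1 H.prime).coprime_iff_not_dvd,
      ← ZMod.intCast_zmod_eq_zero_iff_dvd]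
    exact hb0
  have hst' : (s : R) * b + t * p = 1 := by exact_mod_cast congrArg (Int.cast : ℤ → R) hst
  rw [show (u : R) - c = ((u : R) - c) * b * s + p * (t * ((u : R) - c)) by
    linear_combination -((u : R) - c) * hst']
  exact dvd_add (hR.mul_right _) (dvd_mul_right _ _)

/-- A solution with `(z - 1) ^ 2 ∣ x + y` gives one with a smaller exponent. -/
lemma descent_step (H : KummerRing p z) {m : ℕ} (hm : m ≠ 0) {x y w : R} {e : Rˣ}
    (hx : ¬z - 1 ∣ x) (hw : ¬z - 1 ∣ w) (hxy : IsCoprime x y)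
    (h : x ^ p + y ^ p = e * ((z - 1) ^ m * w) ^ p) (h2 : (z - 1) ^ 2 ∣ x + y) :
    ∃ k, m = k + 2 ∧ ∃ (X Y W : R) (E : Rˣ), ¬z - 1 ∣ X ∧ ¬z - 1 ∣ W ∧ IsCoprime X Y ∧
      X ^ p + Y ^ p = E * ((z - 1) ^ (k + 1) * W) ^ p := by
  obtain ⟨k, rfl, F, hg, hf, hFprod⟩ := exists_factors H hm hx hw h h2
  refine ⟨k, rfl, ?_⟩
  have hπ0 : z - 1 ≠ 0 := H.prime_pi.ne_zero
  obtain ⟨q, hq⟩ : ∃ q, p = q + 1 := ⟨p - 1, by have := H.five_le; omega⟩
  have hew : ¬z - 1 ∣ (e : R) * w ^ p := fun hd ↦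
    hw (H.prime_pi.dvd_of_dvd_pow ((e.isUnit.dvd_mul_left).1 hd))
  have hFnd : ∀ i < p, ¬z - 1 ∣ F i := fun i hi hd ↦ hew
    (hFprod ▸ hd.trans (Finset.dvd_prod_of_mem F (Finset.mem_range.2 hi)))
  have hFspec : ∀ i < p,
      x + z ^ i * y = (z - 1) * (if i = 0 then (z - 1) ^ ((k + 1) * p) else 1) * F i := by
    intro i hi
    rcases eq_or_ne i 0 with rfl | hi0
    · rw [if_pos rfl, pow_zero, one_mul, hg, pow_succ]; ring
    · rw [if_neg hi0, mul_one, hf i hi hi0]
  have hcop := coprime_factors H hxy hFspec hFnd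
  have hqp : q < p := by omega
  obtain ⟨u₀, d₀, h₀⟩ := factor_eq_unit_mul_pow hcop hFprod H.prime.pos
  obtain ⟨u₁, d₁, h₁⟩ := factor_eq_unit_mul_pow hcop hFprod H.prime.one_lt
  obtain ⟨u₂, d₂, h₂⟩ := factor_eq_unit_mul_pow hcop hFprod hqp
  have hq0 : q ≠ 0 := by have := H.five_le; omega
  have e1 := hf 1 H.prime.one_lt one_ne_zero
  have e2 := hf q hqp hq0
  rw [pow_one] at e1
  have hzq : z * z ^ q = 1 := by rw [← pow_succ', ← hq, H.root.pow_eq_one]
  obtain ⟨uz, huz⟩ := H.root.isUnit H.prime.ne_zero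
  obtain ⟨ub, hub⟩ : IsUnit (1 + z) := by
    have := H.root.geom_sum_isUnit (j := 2) H.prime.two_le
      ((Nat.coprime_primes Nat.prime_two H.prime).2 (by have := H.five_le; omega))
    simpa [Finset.sum_range_succ] using this
  -- combine the factors for `i = 0, 1, p - 1`
  have key : (u₁ : R) * d₁ ^ p + z * u₂ * d₂ ^ p
      = (1 + z) * u₀ * ((z - 1) ^ (k + 1) * d₀) ^ p := by
    refine mul_left_cancel₀ hπ0 ?_
    rw [mul_pow, ← pow_mul]
    linear_combination -(z - 1) * h₁ - z * (z - 1) * h₂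
      + (1 + z) * (z - 1) ^ ((k + 1) * p + 1) * h₀ - e1 - z * e2 + (1 + z) * hg + y * hzq
  have hnd₁ : ¬z - 1 ∣ d₁ := fun hd ↦
    hFnd 1 H.prime.one_lt (h₁ ▸ (hd.pow H.prime.ne_zero).mul_left _)
  have hnd₂ : ¬z - 1 ∣ d₂ := fun hd ↦
    hFnd q hqp (h₂ ▸ (hd.pow H.prime.ne_zero).mul_left _)
  have key' : d₁ ^ p + ((u₁⁻¹ * uz * u₂ : Rˣ) : R) * d₂ ^ p
      = ((u₁⁻¹ * ub * u₀ : Rˣ) : R) * ((z - 1) ^ (k + 1) * d₀) ^ p := by
    refine mul_left_cancel₀ u₁.ne_zero ?_
    rw [mul_add, Units.val_mul, Units.val_mul, Units.val_mul, Units.val_mul, huz, hub,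
      ← mul_assoc, ← mul_assoc, ← mul_assoc, Units.mul_inv, one_mul, ← mul_assoc (u₁ : R),
      ← mul_assoc (u₁ : R), ← mul_assoc (u₁ : R), Units.mul_inv, one_mul]
    exact key
  -- Kummer's lemma absorbs the coefficient into `d₂`
  obtain ⟨v, hv⟩ := exists_pth_root_unit H hnd₂ key'
  rw [hv, Units.val_pow_eq_pow_val, ← mul_pow] at key'
  refine ⟨d₁, v * d₂, d₀, _, hnd₁,
    fun hd ↦ hFnd 0 H.prime.pos (h₀ ▸ (hd.pow H.prime.ne_zero).mul_left _), ?_, key'⟩
  have hc := hcop 1 H.prime.one_lt q hqp (by have := H.five_le; omega)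
  rw [h₁, h₂, isCoprime_mul_unit_left_left u₁.isUnit, isCoprime_mul_unit_left_right u₂.isUnit,
    IsCoprime.pow_iff H.prime.pos H.prime.pos] at hc
  exact (isCoprime_mul_unit_left_right v.isUnit _ _).2 hc

/-- **The descent:** the normalised equation has no solution. -/
theorem noSol (H : KummerRing p z) : ∀ m, m ≠ 0 → NoSol p z m := by
  intro m
  induction m using Nat.strong_induction_on with
  | _ m ih =>
    intro hm x y w e hx hw hxy h
    obtain ⟨i, hi⟩ := exists_normalize H hm hx h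
    have hu : IsUnit (z ^ i) := (H.root.isUnit H.prime.ne_zero).pow i
    have h' : x ^ p + (z ^ i * y) ^ p = e * ((z - 1) ^ m * w) ^ p := by
      rw [mul_pow, ← pow_mul, mul_comm i, pow_mul, H.root.pow_eq_one, one_pow, one_mul, h]
    obtain ⟨k, rfl, X, Y, W, E, hX, hW, hXY, hEq⟩ := descent_step H hm hx hw
      ((isCoprime_mul_unit_left_right hu _ _).2 hxy) h' hi
    exact ih (k + 1) (by omega) (by omega) X Y W E hX hW hXY hEq

/-- The second case of Fermat's last theorem. -/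
theorem case_two (H : KummerRing p z) {a b c : ℤ} (h : a ^ p + b ^ p + c ^ p = 0)
    (hab : IsCoprime a b) (hc0 : c ≠ 0) (hpc : (p : ℤ) ∣ c) (hpa : ¬(p : ℤ) ∣ a) : False := by
  have := Fact.mk H.prime
  have hcR : (c : R) ≠ 0 := by
    obtain ⟨n, c', hc', rfl⟩ := WfDvdMonoid.max_power_factor hc0
      (Nat.prime_iff_prime_int.1 H.prime).irreducible
    have hc'R : ¬z - 1 ∣ (c' : R) := fun hd ↦ hc' ((H.dvd_int c').1 hd)
    have hpR : (p : R) ≠ 0 := fun h0 ↦
      H.prime_pi.ne_zero (pow_eq_zero_iff (by have := H.five_le; omega) |>.1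
        (H.assoc.eq_zero_iff.2 h0))
    intro h0
    push_cast at h0
    rcases mul_eq_zero.1 h0 with h0 | h0
    · exact hpR (eq_zero_of_pow_eq_zero h0)
    · exact hc'R (h0 ▸ dvd_zero _)
  obtain ⟨m, w, hw, hcw⟩ := WfDvdMonoid.max_power_factor hcR H.prime_pi.irreducible
  have hm : m ≠ 0 := by
    rintro rfl
    exact hw (by have := (H.dvd_int c).2 hpc; rwa [hcw, pow_zero, one_mul] at this)
  refine noSol H m hm (a : R) (b : R) w (-1) (fun hd ↦ hpa ((H.dvd_int a).1 hd)) hw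
    (hab.map (Int.castRingHom R)) ?_
  have h' := congrArg (fun n : ℤ ↦ (n : R)) h
  push_cast at h'
  rw [hcw] at h'
  rw [Units.val_neg, Units.val_one, neg_one_mul]
  linear_combination h'

end Fermat.KUM
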