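import Mathlib.Algebra.BigOperators.Ring.Finset
import Mathlib.Tactic.Ring

/-!
# Computations with integer polynomials given by coefficient lists

Used to check identities in `ℤ[ζ]` and its quotients by `decide`.
-/

namespace Fermat.KUM

variable {R : Type*} [CommRing R] (x : R)

/-- The value at `x` of the polynomial with the given list of coefficients, constant term first. -/
def evalL : List ℤ → R
  | [] => 0
  | a :: s => (a : R) + x * evalL s

/-- Sum of coefficient lists. -/
def addL : List ℤ → List ℤ → List ℤ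
  | [], l => l
  | a :: s, [] => a :: s
  | a :: s, b :: t => (a + b) :: addL s t

/-- Product of coefficient lists. -/
def mulL : List ℤ → List ℤ → List ℤ
  | [], _ => []
  | a :: s, t => addL (t.map (a * ·)) (0 :: mulL s t)

/-- Evaluation is additive. -/
lemma evalL_addL : ∀ s t, evalL x (addL s t) = evalL x s + evalL x t
  | [], t => by simp [addL, evalL]
  | a :: s, [] => by simp [addL, evalL]
  | a :: s, b :: t => by simp [addL, evalL, evalL_addL s t]; ring

/-- Evaluation commutes with scaling by an integer. -/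
lemma evalL_map_mul (a : ℤ) : ∀ t, evalL x (t.map (a * ·)) = (a : R) * evalL x t
  | [] => by simp [evalL]
  | b :: t => by
    have := evalL_map_mul a t
    simp only [List.map_cons, evalL, this, Int.cast_mul]; ring

/-- Evaluation is multiplicative. -/
lemma evalL_mulL : ∀ s t, evalL x (mulL s t) = evalL x s * evalL x t
  | [], t => by simp [mulL, evalL]
  | a :: s, t => by
    simp only [mulL, evalL_addL, evalL_map_mul, evalL, evalL_mulL s t, Int.cast_zero]; ring

/-- Splitting a list after `n` coefficients. -/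
lemma evalL_take_drop : ∀ (n : ℕ) l, evalL x (l.take n) + x ^ n * evalL x (l.drop n) = evalL x l
  | 0, l => by simp [evalL]
  | n + 1, [] => by simp [evalL]
  | n + 1, a :: l => by
    rw [List.take_succ_cons, List.drop_succ_cons, evalL, evalL, ← evalL_take_drop n l, pow_succ]
    ring

/-- The list of `c x ^ n`. -/
lemma evalL_replicate_zero (n : ℕ) (c : ℤ) :
    evalL x (List.replicate n 0 ++ [c]) = x ^ n * (c : R) := by
  induction n with
  | zero => simp [evalL]
  | succ n ih => simp [List.replicate_succ, evalL, ih, pow_succ]; ring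

/-! ## arithmetic modulo `(p, x ^ N)` -/

/-- The first `N` coefficients, reduced modulo `p`. -/
def normL (p N : ℕ) (l : List ℤ) : List ℤ := (l.take N).map (· % (p : ℤ))

/-- Reducing coefficients modulo `p` preserves the value when `p = 0`. -/
lemma evalL_map_emod (p : ℕ) (hp : (p : R) = 0) :
    ∀ l : List ℤ, evalL x (l.map (· % (p : ℤ))) = evalL x l
  | [] => rfl
  | a :: l => by
    have h : (a : R) = ((a % (p : ℤ) : ℤ) : R) := by
      conv_lhs => rw [← Int.emod_add_mul_ediv a p]
      simp [hp]
    simp [evalL, evalL_map_emod p hp l, h]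

/-- Normalisation preserves the value when `p = 0` and `x ^ N = 0`. -/
lemma evalL_normL {p N : ℕ} (hp : (p : R) = 0) (hx : x ^ N = 0) (l : List ℤ) :
    evalL x (normL p N l) = evalL x l := by
  rw [normL, evalL_map_emod x p hp, ← evalL_take_drop x N l, hx, zero_mul, add_zero]

/-- The `n`-th power modulo `(p, x ^ N)`. -/
def powL (p N : ℕ) (l : List ℤ) : ℕ → List ℤ
  | 0 => [1]
  | n + 1 => normL p N (mulL l (powL p N l n))

/-- The value of `powL`. -/
lemma evalL_powL {p N : ℕ} (hp : (p : R) = 0) (hx : x ^ N = 0) (l : List ℤ) :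
    ∀ n, evalL x (powL p N l n) = evalL x l ^ n
  | 0 => by simp [powL, evalL]
  | n + 1 => by rw [powL, evalL_normL x hp hx, evalL_mulL, evalL_powL hp hx l n, pow_succ']

/-- `1 + z + ⋯ + z ^ (a - 1)` for `z = 1 + x`. -/
def geomL (p N : ℕ) : ℕ → List ℤ
  | 0 => []
  | a + 1 => normL p N (addL [1] (mulL [1, 1] (geomL p N a)))

/-- The value of `geomL`. -/
lemma evalL_geomL {p N : ℕ} (hp : (p : R) = 0) (hx : x ^ N = 0) :
    ∀ a, evalL x (geomL p N a) = ∑ i ∈ Finset.range a, (1 + x) ^ i
  | 0 => by simp [geomL, evalL]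
  | a + 1 => by
    rw [geomL, evalL_normL x hp hx, evalL_addL, evalL_mulL, evalL_geomL hp hx a,
      Finset.sum_range_succ', Finset.mul_sum]
    simp [evalL, pow_succ', add_comm]

/-- The cyclotomic unit `∏ (1 + z + ⋯ + z ^ (a + j - 1)) ^ (t j)`. -/
def unitVal (z : R) : ℕ → List ℕ → R
  | _, [] => 1
  | a, e :: t => (∑ i ∈ Finset.range a, z ^ i) ^ e * unitVal z (a + 1) t

/-- Cyclotomic units commute with ring homomorphisms. -/
lemma map_unitVal {S : Type*} [CommRing S] (f : R →+* S) (z : R) :
    ∀ a t, f (unitVal z a t) = unitVal (f z) a t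
  | a, [] => map_one f
  | a, e :: t => by simp [unitVal, map_unitVal f z (a + 1) t]

/-- The coefficient list of `unitVal (1 + x) a t` modulo `(p, x ^ N)`. -/
def unitL (p N : ℕ) : ℕ → List ℕ → List ℤ
  | _, [] => [1]
  | a, e :: t => normL p N (mulL (powL p N (geomL p N a) e) (unitL p N (a + 1) t))

/-- The value of `unitL`. -/
lemma evalL_unitL {p N : ℕ} (hp : (p : R) = 0) (hx : x ^ N = 0) :
    ∀ a t, evalL x (unitL p N a t) = unitVal (1 + x) a t
  | a, [] => by simp [unitL, unitVal, evalL]
  | a, e :: t => by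
    rw [unitL, unitVal, evalL_normL x hp hx, evalL_mulL, evalL_powL x hp hx,
      evalL_geomL x hp hx, evalL_unitL hp hx (a + 1) t]

/-! ## arithmetic modulo `x ^ p - 1` -/

/-- Fold a coefficient list modulo `x ^ p - 1`. -/
def wrapL (p : ℕ) : ℕ → List ℤ → List ℤ
  | 0, l => l
  | n + 1, l => addL (l.take p) (wrapL p n (l.drop p))

/-- Folding preserves the value when `x ^ p = 1`. -/
lemma evalL_wrapL {p : ℕ} (hx : x ^ p = 1) : ∀ n l, evalL x (wrapL p n l) = evalL x l
  | 0, _ => rfl
  | n + 1, l => by
    rw [wrapL, evalL_addL, evalL_wrapL hx n, ← evalL_take_drop x p l, hx, one_mul]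

/-- Product modulo `x ^ p - 1`. -/
def mulP (p : ℕ) (s t : List ℤ) : List ℤ := wrapL p 2 (mulL s t)

/-- The value of `mulP`. -/
lemma evalL_mulP {p : ℕ} (hx : x ^ p = 1) (s t : List ℤ) :
    evalL x (mulP p s t) = evalL x s * evalL x t := by
  rw [mulP, evalL_wrapL x hx, evalL_mulL]

/-- `l (x ^ i)` reduced modulo `x ^ p - 1`. -/
def substL (p i : ℕ) : List ℤ → List ℤ
  | [] => []
  | a :: l => addL [a] (mulP p (List.replicate i 0 ++ [1]) (substL p i l))

/-- The value of `substL`. -/
lemma evalL_substL {p : ℕ} (hx : x ^ p = 1) (i : ℕ) :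
    ∀ l, evalL x (substL p i l) = evalL (x ^ i) l
  | [] => rfl
  | a :: l => by
    rw [substL, evalL_addL, evalL_mulP x hx, evalL_substL hx i l, evalL_replicate_zero]
    simp [evalL]

/-- Evaluation commutes with ring homomorphisms. -/
lemma map_evalL {S : Type*} [CommRing S] (f : R →+* S) :
    ∀ l : List ℤ, f (evalL x l) = evalL (f x) l
  | [] => map_zero f
  | a :: l => by simp [evalL, map_evalL f l]

/-- The product of the substitutions `x ↦ x ^ i` for `1 ≤ i ≤ n`, modulo `x ^ p - 1`. -/
def prodL (p : ℕ) (l : List ℤ) : ℕ → List ℤ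
  | 0 => [1]
  | n + 1 => mulP p (substL p (n + 1) l) (prodL p l n)

/-- The value of `prodL`. -/
lemma evalL_prodL {p : ℕ} (hx : x ^ p = 1) (l : List ℤ) :
    ∀ n, evalL x (prodL p l n) = ∏ i ∈ Finset.range n, evalL (x ^ (i + 1)) l
  | 0 => by simp [prodL, evalL]
  | n + 1 => by
    rw [prodL, evalL_mulP x hx, evalL_prodL hx l n, evalL_substL x hx, Finset.prod_range_succ]
    ring

/-- The value of a constant list. -/
lemma evalL_replicate : ∀ (n : ℕ) (c : ℤ),
    evalL x (List.replicate n c) = (c : R) * ∑ i ∈ Finset.range n, x ^ i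
  | 0, c => by simp [evalL]
  | n + 1, c => by
    rw [List.replicate_succ, evalL, evalL_replicate n c, Finset.sum_range_succ', mul_add,
      Finset.mul_sum, Finset.mul_sum, Finset.mul_sum, pow_zero, mul_one, add_comm]
    congr 1
    exact Finset.sum_congr rfl fun i _ ↦ by ring

/-- A list differing from the integer `q` by a constant list has value `q` at a root of `1 + x +
⋯ + x ^ (p - 1)`. -/
lemma evalL_cyclo {p : ℕ} (hx : ∑ i ∈ Finset.range p, x ^ i = 0) {l : List ℤ} {q c : ℤ}
    (h : addL l [-q] = List.replicate p c) : evalL x l = (q : R) := by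
  have := congrArg (evalL x) h
  rw [evalL_addL, evalL_replicate, hx, mul_zero] at this
  simpa [evalL, add_neg_eq_zero] using this

end Fermat.KUM
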