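import Mathlib.NumberTheory.NumberField.Cyclotomic.Ideal
import Mathlib.NumberTheory.NumberField.Cyclotomic.PID
import Mathlib.NumberTheory.NumberField.Units.DirichletTheorem
import Mathlib.NumberTheory.Cyclotomic.Gal
import Mathlib.RingTheory.Norm.Transitivity
import Fermat.Agent.KUM.CaseTwo
import Fermat.Agent.KUM.Poly

/-!
# `ℤ[ζ_p]`: norms, class number one, and Kummer's lemma on units, with computable hypotheses

* `pid_of_certs`: class number one, from a Minkowski bound and norm certificates `certNorm`.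
* `kummer_of_certs`: Kummer's lemma, from cyclotomic units certified by `certUnit` to be
  independent modulo `p`-th powers.
-/

open NumberField IsCyclotomicExtension

namespace Fermat.KUM

variable (p : ℕ) [hp : Fact p.Prime] (K : Type) [Field K] [NumberField K]
  [hK : IsCyclotomicExtension {p} ℚ K]

/-- The distinguished root of unity in `𝓞 K`. -/
noncomputable def zetaInt : 𝓞 K := (zeta_spec p ℚ K).toInteger

/-- `zetaInt` is a primitive `p`-th root of unity. -/
lemma zetaInt_root : IsPrimitiveRoot (zetaInt p K) p :=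
  (zeta_spec p ℚ K).toInteger_isPrimitiveRoot

/-- `ζ - 1` is prime. -/
lemma zetaInt_prime : Prime (zetaInt p K - 1) :=
  (zeta_spec p ℚ K).zeta_sub_one_prime'

/-- `ζ - 1` divides a rational integer exactly when `p` does. -/
lemma zetaInt_dvd_int (n : ℤ) : zetaInt p K - 1 ∣ (n : 𝓞 K) ↔ (p : ℤ) ∣ n :=
  IsCyclotomicExtension.Rat.zeta_sub_one_dvd_intCast_iff' p (zeta_spec p ℚ K)

/-- `p` is `(ζ - 1) ^ (p - 1)` up to a unit. -/
lemma zetaInt_assoc : Associated ((zetaInt p K - 1) ^ (p - 1)) (p : 𝓞 K) :=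
  IsCyclotomicExtension.Rat.associated_zeta_sub_one_pow_prime p (zeta_spec p ℚ K)

/-- Every integer of the cyclotomic field is congruent to a rational integer modulo `ζ - 1`. -/
lemma zetaInt_residue (x : 𝓞 K) : ∃ a : ℤ, zetaInt p K - 1 ∣ x - (a : 𝓞 K) := by
  have hx : x ∈ Algebra.adjoin ℤ {zetaInt p K} := by
    have h := IsCyclotomicExtension.Rat.adjoin_singleton_eq_top (zeta_spec p ℚ K)
    rw [show zetaInt p K = (zeta_spec p ℚ K).toInteger from rfl, h]
    trivial
  induction hx using Algebra.adjoin_induction with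
  | mem y hy => exact ⟨1, by rw [Set.mem_singleton_iff.1 hy, Int.cast_one]⟩
  | algebraMap r => exact ⟨r, by simp⟩
  | add y w _ _ hy hw =>
    obtain ⟨a, ha⟩ := hy
    obtain ⟨b, hb⟩ := hw
    exact ⟨a + b, by simpa [add_sub_add_comm] using dvd_add ha hb⟩
  | mul y w _ _ hy hw =>
    obtain ⟨a, ha⟩ := hy
    obtain ⟨b, hb⟩ := hw
    exact ⟨a * b, by simpa using dvd_mul_sub_mul ha hb⟩

/-! ## Class number one -/

/-- The norm is the product of the conjugates `ζ ↦ ζ ^ (i + 1)`. -/
lemma norm_eq_prod_range (x : 𝓞 K) (l : List ℤ) (hx : x = evalL (zetaInt p K) l) :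
    ((Algebra.norm ℤ x : ℤ) : 𝓞 K)
      = ∏ i ∈ Finset.range (p - 1), evalL (zetaInt p K ^ (i + 1)) l := by
  have : IsGalois ℚ K := IsCyclotomicExtension.isGalois {p} ℚ K
  have hζ := zeta_spec p ℚ K
  have hirr := Polynomial.cyclotomic.irreducible_rat hp.out.pos
  have key : ((Algebra.norm ℤ x : ℤ) : K)
      = ∏ i ∈ Finset.range (p - 1), evalL (zeta p ℚ K ^ (i + 1)) l := by
    -- the norm is the product over the Galois group
    have h1 : (x : K) = evalL (zeta p ℚ K) l := by
      rw [hx]; exact map_evalL _ (algebraMap (𝓞 K) K) l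
    have h2 := Algebra.norm_eq_prod_automorphisms ℚ (x : K)
    rw [← Algebra.coe_norm_int x, map_intCast] at h2
    rw [h2]
    have hσ : ∀ σ : Gal(K/ℚ), σ (x : K)
        = evalL (zeta p ℚ K ^ ((autEquivPow K hirr σ : ZMod p)).val) l := by
      intro σ
      rw [h1]
      refine (map_evalL _ (σ : K →+* K) l).trans ?_
      congr 1
      exact (hζ.autToPow_spec ℚ σ).symm
    simp only [hσ]
    -- reindex the units modulo `p` by `range (p - 1)`
    refine (Fintype.prod_equiv (autEquivPow K hirr).toEquiv _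
      (fun t : (ZMod p)ˣ ↦ evalL (zeta p ℚ K ^ (t : ZMod p).val) l) fun _ ↦ rfl).trans ?_
    refine Finset.prod_bij (fun t _ ↦ (t : ZMod p).val - 1) ?_ ?_ ?_ ?_
    · intro t _
      have h := ZMod.val_lt (t : ZMod p)
      have h' : (t : ZMod p).val ≠ 0 := by simp
      rw [Finset.mem_range]; omega
    · intro t _ t' _ h
      have h1 : (t : ZMod p).val ≠ 0 := by simp
      have h2 : (t' : ZMod p).val ≠ 0 := by simp
      exact Units.ext (ZMod.val_injective _ (by omega))
    · intro i hi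
      rw [Finset.mem_range] at hi
      have hne : ((i + 1 : ℕ) : ZMod p) ≠ 0 := by
        rw [Ne, ZMod.natCast_eq_zero_iff]
        exact fun h ↦ by have := Nat.le_of_dvd (by omega) h; omega
      refine ⟨Units.mk0 _ hne, Finset.mem_univ _, ?_⟩
      rw [Units.val_mk0, ZMod.val_natCast_of_lt (by omega)]
      rfl
    · intro t _
      have h' : (t : ZMod p).val ≠ 0 := by simp
      rw [Nat.sub_add_cancel (by omega)]
  -- pull back to the integers
  apply RingOfIntegers.coe_injective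
  rw [map_intCast, key, map_prod]
  simp only [map_evalL, map_pow]
  rfl

/-- Certificate that `evalL ζ l` has norm `± q ^ f`, where `f` is the order of `q` mod `p`. -/
def certNorm (p q f : ℕ) (l : List ℤ) (c : ℤ) : Bool :=
  ((addL (addL (prodL p l (p - 1)) (List.replicate p 0)) [-((q : ℤ) ^ f)]) == List.replicate p c)
    && (q ^ f % p == 1) && (List.range (f - 1)).all (fun k ↦ q ^ (k + 1) % p != 1)
    && decide (0 < f)

/-- A power of a number is one in `ZMod p` exactly when its residue is one. -/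
lemma natCast_pow_eq_one_iff (q k : ℕ) : (q : ZMod p) ^ k = 1 ↔ q ^ k % p = 1 := by
  rw [← Nat.cast_pow, ← Nat.cast_one (R := ZMod p), ZMod.natCast_eq_natCast_iff',
    Nat.one_mod_eq_one.2 hp.out.ne_one]

/-- A norm certificate gives a principal prime over `q`. -/
lemma exists_principal_of_cert {q f : ℕ} (hq : q.Prime) {l : List ℤ} {c : ℤ}
    (h : certNorm p q f l c = true) :
    ∃ P ∈ Ideal.primesOver (Ideal.span {(q : ℤ)}) (𝓞 K), Submodule.IsPrincipal P := by
  simp only [certNorm, Bool.and_eq_true, beq_iff_eq, List.all_eq_true, List.mem_range,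
    bne_iff_ne, decide_eq_true_eq] at h
  obtain ⟨⟨⟨hl, hf1⟩, hfmin⟩, hf⟩ := h
  -- `q` is prime to `p`, of order `f` modulo `p`
  have hne : q ≠ p := by
    rintro rfl
    rw [Nat.pow_mod, Nat.mod_self, zero_pow hf.ne', Nat.zero_mod] at hf1
    exact absurd hf1 zero_ne_one
  have hord : orderOf (q : ZMod p) = f := by
    rw [orderOf_eq_iff hf]
    refine ⟨(natCast_pow_eq_one_iff p q f).2 hf1, fun m hm hm0 ↦ ?_⟩
    rw [Ne, natCast_pow_eq_one_iff]
    have := hfmin (m - 1) (by omega)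
    rwa [Nat.sub_add_cancel hm0] at this
  have hz := zetaInt_root p K
  -- the certified element `α` has norm `q ^ f`
  let α := evalL (zetaInt p K) l
  have hnorm : (Algebra.norm ℤ α).natAbs = q ^ f := by
    have h1 := norm_eq_prod_range p K α l rfl
    rw [← evalL_prodL (zetaInt p K) hz.pow_eq_one] at h1
    have h2 := evalL_cyclo (zetaInt p K) (hz.geom_sum_eq_zero hp.out.one_lt) hl
    rw [evalL_addL, evalL_replicate, Int.cast_zero, zero_mul, add_zero, ← h1] at h2
    rw [Int.cast_inj.1 h2]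
    simp [Int.natAbs_pow]
  have habs : Ideal.absNorm (Ideal.span {α}) = q ^ f := by rw [Ideal.absNorm_span_singleton, hnorm]
  have htop : Ideal.span {α} ≠ ⊤ := fun h ↦ by
    rw [h, Ideal.absNorm_top] at habs
    exact (Nat.one_lt_pow hf.ne' hq.one_lt).ne habs
  -- a maximal ideal over it lies over `q`, so has the same norm
  obtain ⟨P, hP, hle⟩ := Ideal.exists_le_maximal _ htop
  have hqP : (q : 𝓞 K) ∈ P := by
    refine hP.isPrime.mem_of_pow_mem f ?_
    have := Ideal.absNorm_mem (Ideal.span {α})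
    rw [habs, Nat.cast_pow] at this
    exact hle this
  have := Fact.mk hq
  have hlies : P.LiesOver (Ideal.span {(q : ℤ)}) := by
    rw [Ideal.liesOver_iff]
    refine Ideal.IsMaximal.eq_of_le (Int.ideal_span_isMaximal_of_prime q)
      (Ideal.IsPrime.ne_top (Ideal.IsPrime.comap _)) ?_
    rw [Ideal.span_singleton_le_iff_mem, Ideal.mem_comap, algebraMap_int_eq, map_natCast]
    exact hqP
  have hPn : Ideal.absNorm P = q ^ f := by
    rw [← Ideal.pow_inertiaDeg q P, IsCyclotomicExtension.Rat.inertiaDeg_eq_of_not_dvd q K P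
      (fun hd ↦ hne ((Nat.prime_dvd_prime_iff_eq hq hp.out).1 hd)), hord]
  refine ⟨P, ⟨hP.isPrime, hlies⟩, ?_⟩
  -- and therefore is `(α)`
  have : Ideal.span {α} = P := by
    obtain ⟨J, hJ⟩ := Ideal.dvd_iff_le.2 hle
    have h1 := congrArg Ideal.absNorm hJ
    rw [map_mul, habs, hPn, eq_comm, mul_eq_left₀ (pow_ne_zero _ hq.ne_zero),
      Ideal.absNorm_eq_one_iff] at h1
    rw [hJ, h1, Ideal.mul_top]
  exact ⟨α, this.symm⟩

open scoped Real in
/-- `𝓞 K` is a PID, given a bound `M` on the Minkowski constant and certificates. -/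
theorem pid_of_certs (M : ℕ) (hMlt : M < 2 ^ 9)
    (hM : (4 / π) ^ ((p - 1) / 2) * ((p - 1).factorial / ((p - 1 : ℕ) : ℝ) ^ (p - 1)
      * √((p : ℝ) ^ (p - 2))) < M + 1)
    (L : List ℕ)
    (hsmall : ((List.range (M + 1)).all fun q ↦ decide (q < 2) || L.contains q ||
      (List.range 9).all fun k ↦ decide (M < q ^ (k + 1)) || q ^ (k + 1) % p != 1) = true)
    (hL : ∀ q ∈ L, q.Prime → ∃ f l c, certNorm p q f l c = true) :
    IsPrincipalIdealRing (𝓞 K) := by
  have : IsGalois ℚ K := IsCyclotomicExtension.isGalois {p} ℚ K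
  refine open RingOfIntegers in
    isPrincipalIdealRing_of_isPrincipal_of_lt_or_isPrincipal_of_mem_primesOver_of_mem_Icc ?_
  intro q hq hqp
  rw [Finset.mem_Icc] at hq
  -- only primes up to `M` matter
  have hfloor : ⌊(4 / π) ^ InfinitePlace.nrComplexPlaces K * ((Module.finrank ℚ K).factorial /
      (Module.finrank ℚ K : ℝ) ^ (Module.finrank ℚ K) * √|(discr K : ℝ)|)⌋₊ ≤ M := by
    refine Nat.lt_succ_iff.1 ((Nat.floor_lt' (Nat.succ_ne_zero M)).2 ?_)
    rw [IsCyclotomicExtension.Rat.nrComplexPlaces_eq_totient_div_two p,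
      IsCyclotomicExtension.Rat.finrank p K, Nat.totient_prime hp.out,
      IsCyclotomicExtension.Rat.discr_prime p K]
    simpa [abs_mul] using hM
  have hbound : q ≤ M := hq.2.trans hfloor
  -- the prime over `p` is generated by `ζ - 1`
  rcases eq_or_ne q p with rfl | hne
  · refine ⟨Ideal.span {zetaInt q K - 1}, ⟨?_, ?_⟩, Or.inr ⟨_, rfl⟩⟩
    · rw [Ideal.span_singleton_prime (zetaInt_prime q K).ne_zero]; exact zetaInt_prime q K
    · rw [← pow_one q] at hK
      exact IsCyclotomicExtension.Rat.liesOver_span_zeta_sub_one q 0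
        (hζ := show IsPrimitiveRoot (zeta q ℚ K) (q ^ (0 + 1)) by simp)
  -- other primes have a certificate or a residue degree putting their norm beyond the bound
  · have := Fact.mk hqp
    rw [List.all_eq_true] at hsmall
    have h := hsmall q (List.mem_range.2 (by omega))
    simp only [Bool.or_eq_true, decide_eq_true_eq, List.contains_iff_mem, List.all_eq_true,
      List.mem_range, bne_iff_ne] at h
    rcases h with (h | h) | h
    · exact absurd hqp.two_le (by omega)
    · obtain ⟨f, l, c, hc⟩ := hL q h hqp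
      obtain ⟨P, hP, hP'⟩ := exists_principal_of_cert p K hqp hc
      exact ⟨P, hP, Or.inr hP'⟩
    · have := Ideal.IsPrime.isMaximal
        ((Ideal.span_singleton_prime (Int.natCast_ne_zero.2 hqp.ne_zero)).2
          (Nat.prime_iff_prime_int.1 hqp)) (by simp [hqp.ne_zero])
      obtain ⟨P, hP⟩ := (Ideal.nonempty_primesOver (Ideal.span {(q : ℤ)}) : Nonempty
        (Ideal.primesOver (Ideal.span {(q : ℤ)}) (𝓞 K)))
      refine ⟨P, hP, Or.inl (hfloor.trans_lt ?_)⟩
      have := hP.1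
      have := hP.2
      rw [IsCyclotomicExtension.Rat.inertiaDeg_eq_of_not_dvd q K P
        (fun hd ↦ hne ((Nat.prime_dvd_prime_iff_eq hqp hp.out).1 hd))]
      by_contra hlt
      have hu : (q : ZMod p) ≠ 0 := by
        rw [Ne, ZMod.natCast_eq_zero_iff]
        exact fun hd ↦ hne ((Nat.prime_dvd_prime_iff_eq hp.out hqp).1 hd).symm
      have hpos : 0 < orderOf (q : ZMod p) :=
        orderOf_pos_iff.2 (isOfFinOrder_iff_pow_eq_one.2 ⟨p - 1, by have := hp.out.two_le; omega,
          ZMod.pow_card_sub_one_eq_one hu⟩)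
      have h9 : orderOf (q : ZMod p) < 9 := by
        by_contra h9
        exact absurd ((Nat.pow_le_pow_left hqp.two_le 9).trans
          (Nat.pow_le_pow_right hqp.pos (not_lt.1 h9))) (by omega)
      rcases h (orderOf (q : ZMod p) - 1) (by omega) with h1 | h1
      · rw [Nat.sub_add_cancel hpos] at h1; omega
      · rw [Nat.sub_add_cancel hpos] at h1
        exact h1 ((natCast_pow_eq_one_iff p q _).1 (pow_orderOf_eq_one _))

/-! ## Kummer's lemma -/

/-- The data of a cyclotomic unit `ζ ^ b * ∏ (1 + ⋯ + ζ ^ (j + 1)) ^ (t j)` congruent to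
`A + B π ^ d` mod `(p, π ^ (d + 1))`. -/
structure UnitCert where
  /-- The order of the first nonconstant term. -/
  d : ℕ
  /-- The exponent of `ζ`. -/
  b : ℕ
  /-- The exponents of the geometric sums. -/
  t : List ℕ
  /-- The constant term of the congruence. -/
  A : ℤ
  /-- The coefficient of `π ^ d`. -/
  B : ℤ

/-- The data of a cyclotomic unit are correct modulo `(p, π ^ (d + 1))`. -/
def certUnit (p : ℕ) (u : UnitCert) : Bool :=
  let ⟨d, b, t, A, B⟩ := u
  (normL p (d + 1) (mulL (powL p (d + 1) [1, 1] b) (unitL p (d + 1) 2 t))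
      == A :: (List.replicate (d - 1) 0 ++ [B]))
    && decide (1 ≤ d) && decide (d + 2 ≤ p) && (A % p != 0) && (B % p != 0)
    && decide (t.length + 2 ≤ p)

omit [NumberField K] hK in
/-- Cyclotomic units are units. -/
lemma isUnit_unitVal {z : 𝓞 K} (hz : IsPrimitiveRoot z p) :
    ∀ a t, 1 ≤ a → a + t.length ≤ p → IsUnit (unitVal z a t)
  | a, [], _, _ => isUnit_one
  | a, e :: t, ha, h => by
    rw [List.length_cons] at h
    refine IsUnit.mul (IsUnit.pow e (hz.geom_sum_isUnit hp.out.two_le ?_))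
      (isUnit_unitVal hz (a + 1) t (by omega) (by omega))
    exact Nat.coprime_comm.1 ((Nat.Prime.coprime_iff_not_dvd hp.out).2
      fun hd ↦ by have := Nat.le_of_dvd (by omega) hd; omega)

/-- A unit certificate gives a unit with the stated congruence modulo a power of `ζ - 1`. -/
lemma exists_unit_of_cert {u : UnitCert} (h : certUnit p u = true) :
    1 ≤ u.d ∧ u.d + 2 ≤ p ∧ ¬(p : ℤ) ∣ u.A ∧ ¬(p : ℤ) ∣ u.B ∧ ∃ η : (𝓞 K)ˣ,
      (zetaInt p K - 1) ^ (u.d + 1) ∣
        (η : 𝓞 K) - ((u.A : 𝓞 K) + (u.B : 𝓞 K) * (zetaInt p K - 1) ^ u.d) := by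
  obtain ⟨d, b, t, A, B⟩ := u
  simp only [certUnit, Bool.and_eq_true, beq_iff_eq, decide_eq_true_eq, bne_iff_ne] at h
  obtain ⟨⟨⟨⟨⟨h, hd1⟩, hd2⟩, hA⟩, hB⟩, ht⟩ := h
  refine ⟨hd1, hd2, fun hh ↦ hA (Int.emod_eq_zero_of_dvd hh),
    fun hh ↦ hB (Int.emod_eq_zero_of_dvd hh), ?_⟩
  have hz := zetaInt_root p K
  obtain ⟨η, hη⟩ := ((hz.isUnit hp.out.ne_zero).pow b).mul
    (isUnit_unitVal p K hz 2 t (by omega) (by omega))
  refine ⟨η, ?_⟩
  rw [← Ideal.mem_span_singleton, ← Ideal.Quotient.eq_zero_iff_mem]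
  set I := Ideal.span {(zetaInt p K - 1) ^ (d + 1)}
  set f := Ideal.Quotient.mk I
  set x := f (zetaInt p K - 1)
  have hx : x ^ (d + 1) = 0 := by
    rw [← map_pow, Ideal.Quotient.eq_zero_iff_mem]; exact Ideal.mem_span_singleton_self _
  have hp0 : (p : 𝓞 K ⧸ I) = 0 := by
    rw [← map_natCast f, Ideal.Quotient.eq_zero_iff_mem, Ideal.mem_span_singleton]
    exact (pow_dvd_pow _ (by omega)).trans (zetaInt_assoc p K).dvd
  have hzx : f (zetaInt p K) = 1 + x := by simp [x]
  have h1 := congrArg (evalL x) h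
  rw [evalL_normL x hp0 hx, evalL_mulL, evalL_powL x hp0 hx, evalL_unitL x hp0 hx] at h1
  conv_rhs at h1 =>
    rw [evalL, evalL_replicate_zero, ← mul_assoc, ← pow_succ', Nat.sub_add_cancel hd1]
  rw [hη, map_sub, map_mul, map_pow, map_unitVal, hzx, map_add, map_mul, map_pow, map_intCast,
    map_intCast, sub_eq_zero]
  change _ = _ + _ * x ^ d
  rw [mul_comm ((B : 𝓞 K ⧸ I)), ← h1]
  simp [evalL]

/-- The binomial formula for an element of square zero. -/
lemma add_mul_pow_succ {R : Type*} [CommRing R] (A B : R) {y : R} (hy : y * y = 0) (e : ℕ) :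
    (A + B * y) ^ (e + 1) = A ^ (e + 1) + ((e + 1 : ℕ) : R) * A ^ e * B * y := by
  induction e with
  | zero => simp
  | succ e ih =>
    rw [pow_succ, ih]
    push_cast
    linear_combination ((e : R) + 1) * A ^ e * B * B * hy

variable {p K} in
/-- The cyclotomic units are independent in `(𝓞 K / p)ˣ / (ℤ / p)ˣ` modulo `p`-th powers. -/
lemma units_independent {n : ℕ} {d : Fin n → ℕ} (hd : StrictMono d) {A B : Fin n → ℤ}
    {η : Fin n → (𝓞 K)ˣ} (h : ∀ i, 1 ≤ d i ∧ d i + 2 ≤ p ∧ ¬(p : ℤ) ∣ A i ∧ ¬(p : ℤ) ∣ B i ∧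
      (zetaInt p K - 1) ^ (d i + 1) ∣
        (η i : 𝓞 K) - ((A i : 𝓞 K) + (B i : 𝓞 K) * (zetaInt p K - 1) ^ (d i)))
    {e : Fin n → ℕ} {m : ℤ} (he : (p : 𝓞 K) ∣ ∏ i, (η i : 𝓞 K) ^ e i - (m : 𝓞 K)) :
    ∀ i, p ∣ e i := by
  intro i
  induction i using WellFoundedLT.induction with
  | _ i ih =>
    by_contra hei
    obtain ⟨hd1, hd2, hA, hB, hη⟩ := h i
    have hpi := zetaInt_prime p K
    have hint := zetaInt_dvd_int p K
    have hpd : (zetaInt p K - 1) ^ (d i + 1) ∣ (p : 𝓞 K) :=
      (pow_dvd_pow _ (by omega)).trans (zetaInt_assoc p K).dvd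
    set I := Ideal.span {(zetaInt p K - 1) ^ (d i + 1)}
    set f := Ideal.Quotient.mk I
    have hf : ∀ a, f a = 0 ↔ (zetaInt p K - 1) ^ (d i + 1) ∣ a := fun a ↦ by
      rw [Ideal.Quotient.eq_zero_iff_mem, Ideal.mem_span_singleton]
    have hpp : Prime (p : ℤ) := Nat.prime_iff_prime_int.1 hp.out
    -- modulo `π ^ (d i + 1)` the other factors are rational integers prime to `p`
    obtain ⟨C, hC, hCe⟩ : ∃ C : ℤ, ¬(p : ℤ) ∣ C ∧
        f (∏ j ∈ Finset.univ.erase i, (η j : 𝓞 K) ^ e j) = f C := by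
      refine Finset.prod_induction _ (fun u ↦ ∃ C : ℤ, ¬(p : ℤ) ∣ C ∧ f u = f C) ?_ ?_ ?_
      · rintro a b ⟨C, hC, hC'⟩ ⟨D, hD, hD'⟩
        exact ⟨C * D, fun hdvd ↦ (hpp.dvd_or_dvd hdvd).elim hC hD, by
          rw [map_mul, hC', hD', Int.cast_mul, map_mul]⟩
      · exact ⟨1, hpp.not_dvd_one, by rw [Int.cast_one]⟩
      · intro j hj
        obtain ⟨hj1, hj2, hAj, -, hηj⟩ := h j
        rcases lt_or_gt_of_ne (Finset.ne_of_mem_erase hj) with hji | hji
        · obtain ⟨s, hs⟩ := ih j hji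
          set w : (𝓞 K)ˣ := η j ^ s
          obtain ⟨a, v, hv⟩ := zetaInt_residue p K (w : 𝓞 K)
          obtain ⟨r, hr⟩ := exists_add_pow_prime_eq hp.out ((zetaInt p K - 1) * v) (a : 𝓞 K)
          refine ⟨a ^ p, fun hdvd ↦ hpi.not_isUnit (isUnit_of_dvd_unit ?_ w.isUnit), ?_⟩
          · have hq := dvd_add (⟨v, hv⟩ : zetaInt p K - 1 ∣ (w : 𝓞 K) - a)
              ((hint a).2 (hpp.dvd_of_dvd_pow hdvd))
            simpa using hq
          · rw [← sub_eq_zero, ← map_sub, hf, hs, mul_comm, pow_mul,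
              ← Units.val_pow_eq_pow_val, show ((η j ^ s : (𝓞 K)ˣ) : 𝓞 K)
                = (zetaInt p K - 1) * v + a by rw [← hv]; ring, hr, Int.cast_pow,
              add_right_comm, add_sub_cancel_right]
            refine dvd_add ?_ (((hpd.mul_right _).mul_right _).mul_right _)
            rw [mul_pow]
            exact (pow_dvd_pow _ (by omega)).trans (dvd_mul_right _ _)
        · refine ⟨A j ^ e j, fun hdvd ↦ hAj (hpp.dvd_of_dvd_pow hdvd), ?_⟩
          rw [Int.cast_pow, map_pow, map_pow]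
          congr 1
          rw [← sub_eq_zero, ← map_sub, hf]
          have h1 : (zetaInt p K - 1) ^ (d i + 1) ∣ (zetaInt p K - 1) ^ d j :=
            pow_dvd_pow _ (hd hji)
          have := dvd_add ((pow_dvd_pow _ (by have := hd hji; omega)).trans hηj)
            (h1.mul_left (B j : 𝓞 K))
          convert this using 1; ring
    obtain ⟨e', he'⟩ : ∃ e', e i = e' + 1 :=
      ⟨e i - 1, by have : e i ≠ 0 := fun h0 ↦ hei (h0 ▸ dvd_zero p); omega⟩
    set y := f ((zetaInt p K - 1) ^ d i)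
    have hy : y * y = 0 := by
      rw [← map_mul, hf, ← pow_add]; exact pow_dvd_pow _ (by omega)
    have hfi : f (η i : 𝓞 K) = f (A i) + f (B i) * y := by
      rw [← map_mul, ← map_add, ← sub_eq_zero, ← map_sub, hf]; exact hη
    have htot := (hf _).2 (hpd.trans he)
    rw [← Finset.mul_prod_erase _ _ (Finset.mem_univ i), map_sub, map_mul, map_pow, he', hfi,
      add_mul_pow_succ _ _ hy, hCe] at htot
    set M₁ : ℤ := C * A i ^ (e' + 1) - m
    set M₂ : ℤ := C * ((e' + 1 : ℕ) * A i ^ e' * B i)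
    -- the coefficient of `π ^ d i` gives `p ∣ e i`
    have h0 : (zetaInt p K - 1) ^ (d i + 1) ∣
        (M₁ : 𝓞 K) + (M₂ : 𝓞 K) * (zetaInt p K - 1) ^ d i := by
      rw [← hf, ← htot]
      simp only [M₁, M₂, y, Int.cast_sub, Int.cast_mul, Int.cast_pow, Int.cast_natCast, map_add,
        map_sub, map_mul, map_pow, map_natCast, map_intCast]
      ring
    have hM₁ : zetaInt p K - 1 ∣ (M₁ : 𝓞 K) :=
      (dvd_add_left ((dvd_pow_self _ (by omega)).mul_left _)).1
        ((dvd_pow_self _ (Nat.succ_ne_zero _)).trans h0)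
    have hM₁' : (zetaInt p K - 1) ^ (d i + 1) ∣ (M₁ : 𝓞 K) := by
      refine hpd.trans ?_
      have := map_dvd (Int.castRingHom (𝓞 K)) ((hint M₁).1 hM₁)
      simpa using this
    have hM₂ : (p : ℤ) ∣ M₂ := by
      refine (hint M₂).1 ?_
      have := (dvd_add_right hM₁').1 h0
      rw [pow_succ', mul_dvd_mul_iff_right (pow_ne_zero _ hpi.ne_zero)] at this
      exact this
    rcases hpp.dvd_or_dvd hM₂ with h' | h'
    · exact hC h'
    rcases hpp.dvd_or_dvd h' with h' | h'
    · rcases hpp.dvd_or_dvd h' with h' | h'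
      · exact hei (he' ▸ Int.natCast_dvd_natCast.1 h')
      · exact hA (hpp.dvd_of_dvd_pow h')
    · exact hB h'

variable {p K} in
/-- Kummer's lemma, from independent cyclotomic units. -/
theorem kummer_of_certs (us : List UnitCert)
    (hlen : us.length = (p - 1) / 2) (hp3 : 2 < p)
    (hs : (us.map UnitCert.d).Pairwise (· < ·)) (hc : us.all (certUnit p) = true)
    (u : (𝓞 K)ˣ) (m : ℤ) (hu : (p : 𝓞 K) ∣ (u : 𝓞 K) - (m : 𝓞 K)) :
    ∃ v : (𝓞 K)ˣ, u = v ^ p := by
  classical
  rw [List.all_eq_true] at hc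
  have hcert := fun i : Fin us.length ↦ exists_unit_of_cert p K (hc _ (List.get_mem us i))
  choose h1 h2 h3 h4 η hη using hcert
  have hd : StrictMono fun i : Fin us.length ↦ (us.get i).d := fun i j hij ↦ by
    rw [List.pairwise_map, List.pairwise_iff_get] at hs
    exact hs i j hij
  have indep : ∀ (e : Fin us.length → ℕ) (m : ℤ),
      (p : 𝓞 K) ∣ ∏ i, (η i : 𝓞 K) ^ e i - (m : 𝓞 K) → ∀ i, p ∣ e i := fun e m he ↦
    units_independent hd (fun i ↦ ⟨h1 i, h2 i, h3 i, h4 i, hη i⟩) he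
  have hpow := exists_int_congr_pow hp.out (zetaInt_assoc p K) (zetaInt_residue p K)
  -- `E / E ^ p` is generated by `us.length` elements
  let G := (𝓞 K)ˣ ⧸ (powMonoidHom p : (𝓞 K)ˣ →* (𝓞 K)ˣ).range
  have hG : ∀ g : G, g ^ p = 1 := fun g ↦ by
    obtain ⟨x, rfl⟩ := QuotientGroup.mk_surjective g
    rw [← QuotientGroup.mk_pow, QuotientGroup.eq_one_iff]
    exact ⟨x, rfl⟩
  have hrank : Units.rank K + 1 = us.length := by
    rw [Units.rank, InfinitePlace.card_eq_nrRealPlaces_add_nrComplexPlaces,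
      IsCyclotomicExtension.Rat.nrRealPlaces_eq_zero K hp3,
      IsCyclotomicExtension.Rat.nrComplexPlaces_eq_totient_div_two p, Nat.totient_prime hp.out,
      hlen]
    omega
  -- torsion and a fundamental system span; the certified units have as many independent classes
  obtain ⟨g, hg⟩ := IsCyclic.exists_generator (α := Units.torsion K)
  let gens : Fin us.length → (𝓞 K)ˣ := fun i ↦
    Fin.cons (α := fun _ ↦ (𝓞 K)ˣ) (g : (𝓞 K)ˣ) (Units.fundSystem K) (Fin.cast hrank.symm i)
  let Φ : (Fin us.length → Fin p) → G := fun e ↦ QuotientGroup.mk (∏ i, η i ^ (e i : ℕ))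
  let Ψ : (Fin us.length → Fin p) → G := fun e ↦ ∏ i, (QuotientGroup.mk (gens i) : G) ^ (e i : ℕ)
  have hΨ : Function.Surjective Ψ := by
    intro q
    obtain ⟨x, rfl⟩ := QuotientGroup.mk_surjective q
    obtain ⟨⟨ζ', k⟩, hx, -⟩ := Units.exist_unique_eq_mul_prod K x
    obtain ⟨l, hl⟩ := Subgroup.mem_zpowers_iff.1 (hg ζ')
    let k' : Fin us.length → ℤ := fun i ↦ Fin.cons (α := fun _ ↦ ℤ) l k (Fin.cast hrank.symm i)
    have hx' : x = ∏ i, gens i ^ k' i := by
      refine Eq.trans ?_ ((finCongr hrank).prod_comp _)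
      rw [Fin.prod_univ_succ, hx]
      simp [gens, k', ← hl]
    refine ⟨fun i ↦ ⟨((k' i) % p).toNat, ?_⟩, ?_⟩
    · have h1 := Int.emod_lt_of_pos (k' i) (b := p) (by have := hp.out.pos; omega)
      have h2 := Int.emod_nonneg (k' i) (b := p) (by have := hp.out.pos; omega)
      omega
    · rw [hx', QuotientGroup.mk_prod]
      refine Finset.prod_congr rfl fun i _ ↦ ?_
      rw [QuotientGroup.mk_zpow, ← zpow_natCast, Int.toNat_of_nonneg
        (Int.emod_nonneg _ (by have := hp.out.pos; omega)), ← zpow_eq_zpow_emod' _ (hG _)]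
  have : Finite G := Finite.of_surjective Ψ hΨ
  have hΦ : Function.Injective Φ := by
    intro e e' hee
    obtain ⟨v, hv : v ^ p = _⟩ := QuotientGroup.eq.1 hee
    have hdiv := indep fun i ↦ (e' i : ℕ) + (p - (e i : ℕ))
    obtain ⟨a, ha⟩ := hpow ((v * ∏ i, η i : (𝓞 K)ˣ) : 𝓞 K)
    have heq : (∏ i, η i ^ ((e' i : ℕ) + (p - (e i : ℕ)))) = (v * ∏ i, η i) ^ p := by
      rw [mul_pow, hv, ← Finset.prod_pow, mul_assoc, eq_inv_mul_iff_mul_eq,
        ← Finset.prod_mul_distrib, ← Finset.prod_mul_distrib]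
      refine Finset.prod_congr rfl fun i _ ↦ ?_
      rw [← pow_add, ← pow_add]
      congr 1
      have := (e i).2
      omega
    have hall := hdiv a (by
      convert ha using 2
      rw [← Units.val_pow_eq_pow_val, ← heq, Units.coe_prod]
      simp only [Units.val_pow_eq_pow_val])
    funext i
    apply Fin.ext
    obtain ⟨s, hs'⟩ := hall i
    have := (e i).2
    have := (e' i).2
    rcases s with _ | _ | s
    · omega
    · omega
    · rw [Nat.mul_succ, Nat.mul_succ] at hs'; omega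
  obtain ⟨e, he⟩ := (hΦ.bijective_of_nat_card_le (Nat.card_le_card_of_surjective Ψ hΨ)).surjective
    (u : G)
  obtain ⟨v, hv : v ^ p = _⟩ := QuotientGroup.eq.1 he
  have huv : u = (∏ i, η i ^ (e i : ℕ)) * v ^ p := by rw [hv, mul_inv_cancel_left]
  obtain ⟨a, ha⟩ := hpow (v : 𝓞 K)
  have hpp : Prime (p : ℤ) := Nat.prime_iff_prime_int.1 hp.out
  have ha0 : ¬(p : ℤ) ∣ a := by
    intro hd
    refine (zetaInt_prime p K).not_isUnit (isUnit_of_dvd_unit ?_ (v.isUnit.pow p))
    have h1 := ((zetaInt_dvd_int p K (p : ℤ)).2 dvd_rfl)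
    rw [Int.cast_natCast] at h1
    simpa using dvd_add (h1.trans ha) ((zetaInt_dvd_int p K a).2 hd)
  -- `u` is congruent to an integer, so all exponents of the certified units vanish
  obtain ⟨s, t, hst⟩ := (hpp.coprime_iff_not_dvd.2 ha0).symm
  have hst' : (s : 𝓞 K) * a + t * p = 1 := by
    exact_mod_cast congrArg (Int.cast : ℤ → 𝓞 K) hst
  have hall := indep (fun i ↦ (e i : ℕ)) (m * s) (by
    have hu' := hu
    rw [huv, Units.val_mul, Units.coe_prod, Units.val_pow_eq_pow_val] at hu'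
    simp only [Units.val_pow_eq_pow_val] at hu'
    set P := ∏ i, (η i : 𝓞 K) ^ (e i : ℕ)
    rw [Int.cast_mul, show P - (m : 𝓞 K) * s = (P * (v : 𝓞 K) ^ p - m) * s
        - P * ((v : 𝓞 K) ^ p - a) * s + p * (P * t) by linear_combination -P * hst']
    exact dvd_add (dvd_sub (hu'.mul_right _) ((ha.mul_left _).mul_right _)) (dvd_mul_right _ _))
  refine ⟨v, huv.trans ?_⟩
  rw [Finset.prod_eq_one fun i _ ↦ ?_, one_mul]
  rw [Nat.eq_zero_of_dvd_of_lt (hall i) (e i).2, pow_zero]

end Fermat.KUM
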