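import Mathlib.Algebra.Field.ZMod
import Mathlib.RingTheory.PrincipalIdealDomain
import Mathlib.RingTheory.Int.Basic
import Mathlib.Tactic.Ring
import Mathlib.Tactic.LinearCombination
import Mathlib.Tactic.FieldSimp
import Mathlib.Algebra.Ring.GeomSum

/-!
# Sophie Germain's theorem (first case of Fermat's last theorem)

`sophie_germain`; `Small` supplies the auxiliary primes.
-/

namespace Fermat.KUM

/-- `∑ x ^ i (-y) ^ (p - 1 - i)`, the cofactor of `x + y` in `x ^ p + y ^ p`. -/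
def sgT (p : ℕ) (x y : ℤ) : ℤ := ∑ i ∈ Finset.range p, x ^ i * (-y) ^ (p - 1 - i)

/-- The factorisation `(x + y) sgT = x ^ p + y ^ p`. -/
lemma sgT_mul {p : ℕ} (hp : Odd p) (x y : ℤ) : (x + y) * sgT p x y = x ^ p + y ^ p := by
  have := geom_sum₂_mul x (-y) p
  rw [sub_neg_eq_add, hp.neg_pow, sub_neg_eq_add] at this
  rw [mul_comm]; exact this

/-- Where `x + y = 0` the cofactor is `p x ^ (p - 1)`. -/
lemma sgT_cast {p : ℕ} {R : Type*} [CommRing R] {x y : ℤ} (h : (x : R) + y = 0) :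
    (sgT p x y : R) = p * (x : R) ^ (p - 1) := by
  have hy : (-y : R) = (x : R) := by linear_combination -h
  simp only [sgT, Int.cast_sum, Int.cast_mul, Int.cast_pow, Int.cast_neg, hy]
  rw [Finset.sum_congr rfl fun i hi ↦ ?_, Finset.sum_const, Finset.card_range, nsmul_eq_mul]
  rw [← pow_add]
  congr 1
  have := Finset.mem_range.1 hi
  omega

/-- If `p` does not divide `z` and `x`, `y` are coprime, both factors of `x ^ p + y ^ p` are
`p`-th powers. -/
lemma sum_eq_pow {p : ℕ} (hp : p.Prime) (hodd : Odd p) {x y z : ℤ}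
    (h : x ^ p + y ^ p + z ^ p = 0) (hxy : IsCoprime x y) (hz : ¬(p : ℤ) ∣ z) :
    (∃ A : ℤ, x + y = A ^ p) ∧ ∃ T : ℤ, sgT p x y = T ^ p := by
  have hmul : (x + y) * sgT p x y = (-z) ^ p := by
    rw [sgT_mul hodd, hodd.neg_pow]; linear_combination h
  have hcop : IsCoprime (x + y) (sgT p x y) := by
    refine isCoprime_of_prime_dvd ?_ fun r hr hr1 hr2 ↦ ?_
    · rintro ⟨h1, -⟩
      rw [h1, zero_mul, eq_comm, pow_eq_zero_iff hp.ne_zero, neg_eq_zero] at hmul
      exact hz (hmul ▸ dvd_zero _)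
    · have hrz : r ∣ -z := hr.dvd_of_dvd_pow (hmul ▸ hr1.mul_right _)
      have hn : (r.natAbs : ℤ) ∣ r := Int.natAbs_dvd.2 dvd_rfl
      have h0 : (x : ZMod r.natAbs) + y = 0 := by
        rw [← Int.cast_add, ZMod.intCast_zmod_eq_zero_iff_dvd]; exact hn.trans hr1
      have hT := sgT_cast (p := p) h0
      rw [(ZMod.intCast_zmod_eq_zero_iff_dvd _ _).2 (hn.trans hr2)] at hT
      have := Fact.mk (Int.prime_iff_natAbs_prime.1 hr)
      rcases mul_eq_zero.1 hT.symm with h1 | h1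
      · rw [ZMod.natCast_eq_zero_iff] at h1
        have := (Nat.prime_dvd_prime_iff_eq (Fact.out) hp).1 h1
        exact hz ((Int.natAbs_dvd_natAbs.1 (by simp [this])).trans (dvd_neg.1 hrz))
      · have hx : r ∣ x := Int.natAbs_dvd.1
          ((ZMod.intCast_zmod_eq_zero_iff_dvd _ _).1 (eq_zero_of_pow_eq_zero h1))
        exact hr.not_isUnit (hxy.isUnit_of_dvd' hx ((dvd_add_right hx).1 hr1))
  exact ⟨Int.eq_pow_of_mul_eq_pow_odd_left hcop hodd hmul,
    Int.eq_pow_of_mul_eq_pow_odd_right hcop hodd hmul⟩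

/-- Sophie Germain: for an auxiliary prime `q`, no solution with `p` prime to `abc`. -/
theorem sophie_germain {p q : ℕ} [hq : Fact q.Prime] (hp : p.Prime) (hodd : Odd p)
    (hcons : ∀ x y : ZMod q, x ^ p + y ^ p + 1 = 0 → x = 0 ∨ y = 0)
    (hpow : ∀ x : ZMod q, x ^ p ≠ (p : ZMod q))
    {a b c : ℤ} (h : a ^ p + b ^ p + c ^ p = 0)
    (hab : IsCoprime a b) (hbc : IsCoprime b c) (hca : IsCoprime c a)
    (ha : ¬(p : ℤ) ∣ a) (hb : ¬(p : ℤ) ∣ b) (hc : ¬(p : ℤ) ∣ c) : False := by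
  have key : ∀ {x y z : ℤ}, x ^ p + y ^ p + z ^ p = 0 → IsCoprime x y → IsCoprime y z →
      IsCoprime z x → ¬(p : ℤ) ∣ x → ¬(p : ℤ) ∣ y → ¬(p : ℤ) ∣ z → (x : ZMod q) = 0 → False := by
    intro x y z h hxy hyz hzx hpx hpy hpz hx
    obtain ⟨⟨A, hA⟩, ⟨T, hT⟩⟩ := sum_eq_pow hp hodd (x := y) (y := z) (z := x)
      (by linear_combination h) hyz hpx
    obtain ⟨⟨B, hB⟩, -⟩ := sum_eq_pow hp hodd (x := z) (y := x) (z := y)
      (by linear_combination h) hzx hpy
    obtain ⟨⟨C, hC⟩, -⟩ := sum_eq_pow hp hodd (x := x) (y := y) (z := z)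
      (by linear_combination h) hxy hpz
    have hA' := congrArg (fun n : ℤ ↦ (n : ZMod q)) hA
    have hB' := congrArg (fun n : ℤ ↦ (n : ZMod q)) hB
    have hC' := congrArg (fun n : ℤ ↦ (n : ZMod q)) hC
    have hT' := congrArg (fun n : ℤ ↦ (n : ZMod q)) hT
    simp only [Int.cast_add, Int.cast_pow, hx, zero_add, add_zero] at hA' hB' hC' hT'
    -- `y = C ^ p`, `z = B ^ p` are units mod `q`
    have hy : (y : ZMod q) ≠ 0 := fun hy ↦ (Nat.prime_iff_prime_int.1 hq.out).not_isUnit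
      (hxy.isUnit_of_dvd' ((ZMod.intCast_zmod_eq_zero_iff_dvd _ _).1 hx)
        ((ZMod.intCast_zmod_eq_zero_iff_dvd _ _).1 hy))
    have hz : (z : ZMod q) ≠ 0 := fun hz ↦ (Nat.prime_iff_prime_int.1 hq.out).not_isUnit
      (hzx.isUnit_of_dvd' ((ZMod.intCast_zmod_eq_zero_iff_dvd _ _).1 hz)
        ((ZMod.intCast_zmod_eq_zero_iff_dvd _ _).1 hx))
    have hA0 : (A : ZMod q) = 0 := by
      by_contra hne
      have hCne : (C : ZMod q) ≠ 0 := fun h0 ↦ hy (by rw [hC', h0, zero_pow hp.ne_zero])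
      have hBne : (B : ZMod q) ≠ 0 := fun h0 ↦ hz (by rw [hB', h0, zero_pow hp.ne_zero])
      have h1 : (-(B : ZMod q) / A) ^ p + (-(C : ZMod q) / A) ^ p + 1 = 0 := by
        rw [div_pow, div_pow, hodd.neg_pow, hodd.neg_pow, ← hB', ← hC', ← hA']
        have : (y : ZMod q) + z ≠ 0 := by rw [hA']; exact pow_ne_zero _ hne
        field_simp
        ring
      rcases hcons _ _ h1 with h2 | h2 <;> simp_all [div_eq_zero_iff]
    rw [hA0, zero_pow hp.ne_zero] at hA'
    rw [sgT_cast hA', hC', ← pow_mul, mul_comm p, pow_mul] at hT'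
    have hCne : (C : ZMod q) ≠ 0 := fun h0 ↦ hy (by rw [hC', h0, zero_pow hp.ne_zero])
    refine hpow ((T : ZMod q) / (C : ZMod q) ^ (p - 1)) ?_
    rw [div_pow, ← hT', mul_div_assoc, div_self (pow_ne_zero _ (pow_ne_zero _ hCne)), mul_one]
  -- `q` divides one of `a, b, c`, else `hcons` fails
  by_cases h0 : (a : ZMod q) = 0
  · exact key h hab hbc hca ha hb hc h0
  by_cases h1 : (b : ZMod q) = 0
  · exact key (x := b) (y := c) (z := a) (by linear_combination h) hbc hca hab hb hc ha h1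
  by_cases h2 : (c : ZMod q) = 0
  · exact key (x := c) (y := a) (z := b) (by linear_combination h) hca hab hbc hc ha hb h2
  have h3 := congrArg (fun n : ℤ ↦ (n : ZMod q)) h
  simp only [Int.cast_add, Int.cast_pow, Int.cast_zero] at h3
  have : ((a : ZMod q) / c) ^ p + ((b : ZMod q) / c) ^ p + 1 = 0 := by
    rw [div_pow, div_pow]
    field_simp
    linear_combination h3
  rcases hcons _ _ this with h4 | h4 <;> simp_all [div_eq_zero_iff]

end Fermat.KUM
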