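import Fermat.Agent.KUM.Cyclo
import Fermat.Agent.KUM.SophieGermain
import Mathlib.NumberTheory.FLT.Basic
import Mathlib.Analysis.Real.Pi.Bounds
import Mathlib.Tactic.NormNum.Prime

/-!
# Fermat's last theorem for the exponents 5, 7, 11, 13

`flt_five`, `flt_seven`, `flt_eleven`, `flt_thirteen`: the first case by `SophieGermain`, the second
by `CaseTwo` with the certificates of `Cyclo`.
-/

open NumberField
open scoped Real

namespace Fermat.KUM

/-- `CyclotomicField p ℚ` is cyclotomic; stated because the instance is not found by unification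
at instance transparency. -/
theorem isCyclotomic_cyclotomicField (p : ℕ) [NeZero p] :
    IsCyclotomicExtension {p} ℚ (CyclotomicField p ℚ) := by
  have : NeZero ((p : ℕ) : ℚ) := ⟨Nat.cast_ne_zero.2 (NeZero.ne p)⟩
  convert CyclotomicField.isCyclotomicExtension p ℚ
  all_goals rfl

attribute [local instance] isCyclotomic_cyclotomicField

/-! Primality of the exponents and of the auxiliary primes, as local instances. -/

/-- `5` is prime. -/
theorem fact_prime_five : Fact (Nat.Prime 5) := ⟨by norm_num⟩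
/-- `7` is prime. -/
theorem fact_prime_seven : Fact (Nat.Prime 7) := ⟨by norm_num⟩
/-- `11` is prime. -/
theorem fact_prime_eleven : Fact (Nat.Prime 11) := ⟨by norm_num⟩
/-- `13` is prime. -/
theorem fact_prime_thirteen : Fact (Nat.Prime 13) := ⟨by norm_num⟩
/-- `23` is prime. -/
theorem fact_prime_twentythree : Fact (Nat.Prime 23) := ⟨by norm_num⟩
/-- `29` is prime. -/
theorem fact_prime_twentynine : Fact (Nat.Prime 29) := ⟨by norm_num⟩
/-- `53` is prime. -/
theorem fact_prime_fiftythree : Fact (Nat.Prime 53) := ⟨by norm_num⟩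

attribute [local instance] fact_prime_five fact_prime_seven fact_prime_eleven fact_prime_thirteen
  fact_prime_twentythree fact_prime_twentynine fact_prime_fiftythree

/-- Fermat's Last Theorem for a prime with class number one, from an auxiliary prime and unit
certificates. -/
theorem fltFor_of_certs (p : ℕ) [hp : Fact p.Prime] (hp5 : 5 ≤ p)
    (q : ℕ) [Fact q.Prime]
    (hcons : ∀ x y : ZMod q, x ^ p + y ^ p + 1 = 0 → x = 0 ∨ y = 0)
    (hpow : ∀ x : ZMod q, x ^ p ≠ (p : ZMod q))
    (hpid : IsPrincipalIdealRing (𝓞 (CyclotomicField p ℚ)))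
    (us : List UnitCert)
    (hlen : us.length = (p - 1) / 2)
    (hs : (us.map UnitCert.d).Pairwise (· < ·)) (hc : us.all (certUnit p) = true) :
    FermatLastTheoremFor p := by
  have H : KummerRing p (zetaInt p (CyclotomicField p ℚ)) :=
    { prime := hp.out
      five_le := hp5
      root := zetaInt_root p _
      prime_pi := zetaInt_prime p _
      assoc := zetaInt_assoc p _
      dvd_int := zetaInt_dvd_int p _
      residue := zetaInt_residue p _
      kummer := fun u n hu ↦ kummer_of_certs us hlen (by omega) hs hc u n hu }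
  have hodd : Odd p := hp.out.odd_of_ne_two (by omega)
  rw [fermatLastTheoremFor_iff_int]
  refine fermatLastTheoremWith_of_fermatLastTheoremWith_coprime fun a b c ha hb hc hgcd h ↦ ?_
  have h0 : a ^ p + b ^ p + (-c) ^ p = 0 := by rw [hodd.neg_pow, h, add_neg_cancel]
  have hg : ∀ {x y z : ℤ}, x ^ p + y ^ p + z ^ p = 0 →
      ({x, y, z} : Finset ℤ).gcd id = 1 → IsCoprime x y := fun h h' ↦
    isCoprime_of_gcd_eq_one_of_FLT h' h
  have hgcd' : ({a, b, -c} : Finset ℤ).gcd id = 1 := by
    simpa [Finset.gcd_insert, Finset.gcd_singleton, ← Int.abs_eq_normalize] using hgcd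
  have hab : IsCoprime a b := hg h0 hgcd'
  have hbc : IsCoprime b (-c) := hg (z := a) (by linear_combination h0) (by
    rw [← hgcd']; congr 1; ext; simp only [Finset.mem_insert, Finset.mem_singleton]; tauto)
  have hca : IsCoprime (-c) a := hg (z := b) (by linear_combination h0) (by
    rw [← hgcd']; congr 1; ext; simp only [Finset.mem_insert, Finset.mem_singleton]; tauto)
  have hnd : ∀ {x y : ℤ}, IsCoprime x y → (p : ℤ) ∣ y → ¬(p : ℤ) ∣ x := fun h hy hx ↦
    (Nat.prime_iff_prime_int.1 hp.out).not_isUnit (h.isUnit_of_dvd' hx hy)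
  by_cases h1 : (p : ℤ) ∣ a
  · exact case_two H (a := b) (b := -c) (c := a) (by linear_combination h0) hbc ha h1
      (hnd hab.symm h1)
  by_cases h2 : (p : ℤ) ∣ b
  · exact case_two H (a := -c) (b := a) (c := b) (by linear_combination h0) hca hb h2
      (hnd hbc.symm h2)
  by_cases h3 : (p : ℤ) ∣ -c
  · exact case_two H (a := a) (b := b) (c := -c) h0 hab (neg_ne_zero.2 hc) h3 (hnd hca.symm h3)
  exact sophie_germain hp.out hodd hcons hpow h0 hab hbc hca h1 h2 h3

/-- The condition of Sophie Germain on consecutive `p`-th powers, from a list containing all of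
them. -/
theorem cons_of_list {p q : ℕ} [Fact q.Prime] (S : List (ZMod q)) (hS : ∀ x : ZMod q, x ^ p ∈ S)
    (h : ∀ a ∈ S, ∀ b ∈ S, a + b + 1 = 0 → a = 0 ∨ b = 0) :
    ∀ x y : ZMod q, x ^ p + y ^ p + 1 = 0 → x = 0 ∨ y = 0 := fun x y hxy ↦
  (h _ (hS x) _ (hS y) hxy).imp eq_zero_of_pow_eq_zero eq_zero_of_pow_eq_zero

/-- A rational bound for `4 / π`. -/
lemma four_div_pi_le : 4 / π ≤ 4 / 3.1415 := by
  apply div_le_div_of_nonneg_left (by norm_num) (by norm_num) Real.pi_gt_d4.le

/-- Fermat's Last Theorem for exponent five. -/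
theorem flt_five : FermatLastTheoremFor 5 := by
  exact fltFor_of_certs 5 le_rfl 11 (cons_of_list [0, 1, 10] (by decide) (by decide)) (by decide)
    (IsCyclotomicExtension.Rat.five_pid _)
    [⟨1, 1, [], 1, 1⟩, ⟨2, 2, [1], 2, 4⟩] rfl (by decide) (by decide +kernel)

/-- Fermat's Last Theorem for exponent seven. -/
theorem flt_seven : FermatLastTheoremFor 7 := by
  refine fltFor_of_certs 7 (by norm_num) 29 (cons_of_list [0, 1, 12, 17, 28] (by decide)
    (by decide)) (by decide) ?_
    [⟨1, 1, [0, 0], 1, 1⟩, ⟨2, 3, [1, 0], 2, 2⟩, ⟨4, 5, [2, 1], 5, 1⟩] rfl (by decide)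
    (by decide +kernel)
  refine pid_of_certs 7 _ 5 (by norm_num) ?_ [] (by decide +kernel) (by simp)
  have h1 : √(((7 : ℕ) : ℝ) ^ (7 - 2)) ≤ 130 := by
    rw [Real.sqrt_le_iff]; norm_num
  have h2 := pow_le_pow_left₀ (by positivity) four_div_pi_le ((7 - 1) / 2)
  refine (mul_le_mul h2 (mul_le_mul_of_nonneg_left h1 (by positivity)) (by positivity)
    (by norm_num)).trans_lt ?_
  norm_num [Nat.factorial]

/-- Fermat's Last Theorem for exponent eleven. -/
theorem flt_eleven : FermatLastTheoremFor 11 := by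
  refine fltFor_of_certs 11 (by norm_num) 23 (cons_of_list [0, 1, 22] (by decide) (by decide))
    (by decide) ?_
    [⟨1, 1, [], 1, 1⟩, ⟨2, 5, [1], 2, 3⟩, ⟨4, 4, [1, 1], 6, 10⟩, ⟨6, 5, [7, 1, 1], 7, 7⟩,
      ⟨8, 1, [5, 3, 9, 1], 2, 4⟩] rfl (by decide) (by decide +kernel)
  refine pid_of_certs 11 _ 60 (by norm_num) ?_ [12, 23, 34, 45, 56] (by decide +kernel) ?_
  · have h1 : √(((11 : ℕ) : ℝ) ^ (11 - 2)) ≤ 48600 := by
      rw [Real.sqrt_le_iff]; norm_num
    have h2 := pow_le_pow_left₀ (by positivity) four_div_pi_le ((11 - 1) / 2)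
    refine (mul_le_mul h2 (mul_le_mul_of_nonneg_left h1 (by positivity)) (by positivity)
      (by norm_num)).trans_lt ?_
    norm_num [Nat.factorial]
  · intro q hq hq'
    simp only [List.mem_cons, List.not_mem_nil, or_false] at hq
    rcases hq with rfl | rfl | rfl | rfl | rfl <;> first
      | (revert hq'; norm_num; done)
      | exact ⟨1, [1, 1, 0, 1], 5366, by decide +kernel⟩

/-- Fermat's Last Theorem for exponent thirteen. -/
theorem flt_thirteen : FermatLastTheoremFor 13 := by
  refine fltFor_of_certs 13 (by norm_num) 53 (cons_of_list [0, 1, 23, 30, 52] (by decide +kernel)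
    (by decide +kernel)) (by decide +kernel) ?_
    [⟨1, 1, [], 1, 1⟩, ⟨2, 6, [1], 2, 10⟩, ⟨4, 9, [6, 1], 10, 6⟩, ⟨6, 6, [7, 2, 1], 6, 6⟩,
      ⟨8, 1, [12, 11, 4, 1], 2, 2⟩, ⟨10, 2, [3, 10, 12, 9, 1], 5, 10⟩] rfl (by decide)
    (by decide +kernel)
  refine pid_of_certs 13 _ 310 (by norm_num) ?_ [3, 12, 14, 27, 40, 53, 66, 79, 92, 105, 118,
    131, 144, 157, 170, 183, 196, 209, 222, 235, 248, 261, 274, 287, 300] (by decide +kernel) ?_
  · have h1 : √(((13 : ℕ) : ℝ) ^ (13 - 2)) ≤ 1339000 := by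
      rw [Real.sqrt_le_iff]; norm_num
    have h2 := pow_le_pow_left₀ (by positivity) four_div_pi_le ((13 - 1) / 2)
    refine (mul_le_mul h2 (mul_le_mul_of_nonneg_left h1 (by positivity)) (by positivity)
      (by norm_num)).trans_lt ?_
    norm_num [Nat.factorial]
  · intro q hq hq'
    simp only [List.mem_cons, List.not_mem_nil, or_false] at hq
    rcases hq with rfl | rfl | rfl | rfl | rfl | rfl | rfl | rfl | rfl | rfl | rfl | rfl | rfl |
      rfl | rfl | rfl | rfl | rfl | rfl | rfl | rfl | rfl | rfl | rfl | rfl <;> first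
      | (revert hq'; norm_num; done)
      | exact ⟨3, [1, 1, 0, -1], -2, by decide +kernel⟩
      | exact ⟨1, [1, 1, 0, 1], 40876, by decide +kernel⟩
      | exact ⟨1, [-1, 1, 0, 0, 1], -6, by decide +kernel⟩
      | exact ⟨1, [-1, 1, 0, 1], -10, by decide +kernel⟩
      | exact ⟨1, [-1, 1, -1, 0, -1], 303, by decide +kernel⟩

end Fermat.KUM
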